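import Mathlib
import Fermat.Agent.S21.Primitive
import Fermat.Agent.S21.Injective
import Fermat.Agent.S23.Conj

set_option autoImplicit false

/-!
# S16, lower bound: periods of `j γ j⁻¹` are conjugates of periods of `γ`
-/

namespace Fermat.Agent.S16Lib

open UpperHalfPlane Filter Function Complex
open CongruenceSubgroup ModularCurve ModularCurve.Period
open Fermat.Agent.S21Lib
open scoped ModularForm Manifold MatrixGroups Topology ComplexConjugate

noncomputable section

variable {N : ℕ} [NeZero N]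

theorem conj_form_apply {f g : CuspForm (Gamma0 N) 2}
    (h : qExpansion 1 g = (qExpansion 1 f).map (starRingEnd ℂ)) (z : ℍ) :
    g z = conj (f (J • z)) := by
  have hsp := one_mem_strictPeriods_Gamma0 N
  have h1 := ModularForm.hasSum_qExpansion (f := f) one_pos hsp (J • z)
  have h2 := ModularForm.hasSum_qExpansion (f := g) one_pos hsp z
  have h3 := (Complex.hasSum_conj'.mpr h1)
  refine h2.unique ?_
  convert h3 using 2 with m
  rw [h, PowerSeries.coeff_map, inj_qParam_J, map_mul, map_pow, Complex.conj_conj]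

theorem tendsto_J_smul : Tendsto (fun z : ℍ => J • z) atImInfty atImInfty := by
  rw [atImInfty, tendsto_comap_iff]
  have : (UpperHalfPlane.im ∘ fun z : ℍ => J • z) = UpperHalfPlane.im := by
    funext z
    show ((J • z : ℍ) : ℂ).im = (z : ℂ).im
    rw [coe_J_smul]
    simp
  rw [this]
  exact tendsto_comap

theorem hasDerivAt_sharp {F : ℍ → ℂ} {f : ℍ → ℂ}
    (hF : ∀ τ : ℍ, HasDerivAt (F ∘ ofComplex) (f τ) ↑τ) (τ : ℍ) :
    HasDerivAt ((fun z : ℍ => -conj (F (J • z))) ∘ ofComplex) (conj (f (J • τ))) ↑τ := by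
  have h1 := (hF (J • τ)).conj_conj
  have hx : conj ((J • τ : ℍ) : ℂ) = -(τ : ℂ) := by
    rw [coe_J_smul]; simp
  rw [hx] at h1
  have h2 : HasDerivAt (fun w : ℂ => -w) (-1) (τ : ℂ) := (hasDerivAt_id _).neg
  have h3 := (h1.comp (τ : ℂ) h2).neg
  have h4 : -(conj (f (J • τ)) * -1) = conj (f (J • τ)) := by ring
  rw [h4] at h3
  refine h3.congr_of_eventuallyEq ?_
  have hopen : {w : ℂ | 0 < w.im} ∈ 𝓝 (τ : ℂ) :=
    (isOpen_lt continuous_const Complex.continuous_im).mem_nhds τ.im_pos
  filter_upwards [hopen] with w hw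
  simp only [Function.comp, Pi.neg_apply]
  congr 3
  rw [J_smul, ofComplex_apply_of_im_pos hw]
  simp

theorem periodMap_jConj (f : CuspForm (Gamma0 N) 2) :
    ∃ g : CuspForm (Gamma0 N) 2, ∀ γ : Gamma0 N,
      periodMap N f (Additive.ofMul (jConjGamma0 N γ))
        = -conj (periodMap N g (Additive.ofMul γ)) := by
  obtain ⟨g, hg⟩ := Fermat.Agent.S23Lib.exists_conj (N := N) 2 (starRingEnd ℂ) f
  refine ⟨g, fun γ => ?_⟩
  obtain ⟨F, hF, -⟩ := exists_primitive f
  obtain ⟨G, hG, -⟩ := exists_primitive g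
  have hG' : G = fun z : ℍ => -conj (F (J • z)) := by
    refine primitive_unique hG.1 (fun τ => ?_) hG.2.1 ?_
    · rw [conj_form_apply hg τ]
      exact hasDerivAt_sharp hF.1 τ
    · have h1 := hF.2.1.comp tendsto_J_smul
      have h2 := ((Complex.continuous_conj.tendsto 0).comp h1).neg
      simpa using h2
  rw [periodMap_apply hG γ UpperHalfPlane.I,
    periodMap_apply hF (jConjGamma0 N γ) (J • UpperHalfPlane.I), hG', jConjGamma0_coe,
    inj_jConj_smul_J]
  simp
  ring

end

end Fermat.Agent.S16Lib
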