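import Mathlib
import Fermat.Prelude.Def_ModularCurve_PeriodHomPair

/-!
# S16, lower bound `n ∣ m`: shared definitions
-/

open scoped MatrixGroups

namespace Fermat.Agent.S16Lib

/-- Homomorphisms `Γ → K` killing every element of trace `0, ±1, ±2`
(elliptic and parabolic elements, and `±1`). -/
def ellParHoms (K : Type*) [Field K] (Γ : Subgroup SL(2, ℤ)) :
    Submodule K (Additive Γ →+ K) where
  carrier := {φ | ∀ γ : Γ, ((γ : SL(2, ℤ)) : Matrix (Fin 2) (Fin 2) ℤ).trace ^ 2 ≤ 4 →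
    φ (Additive.ofMul γ) = 0}
  zero_mem' := fun _ _ => rfl
  add_mem' := by
    intro φ ψ hφ hψ γ hγ
    show φ (Additive.ofMul γ) + ψ (Additive.ofMul γ) = 0
    rw [hφ γ hγ, hψ γ hγ, add_zero]
  smul_mem' := by
    intro c φ hφ γ hγ
    show c • φ (Additive.ofMul γ) = 0
    rw [hφ γ hγ, smul_zero]

theorem mem_ellParHoms_iff {K : Type*} [Field K] {Γ : Subgroup SL(2, ℤ)}
    {φ : Additive Γ →+ K} : φ ∈ ellParHoms K Γ ↔
      ∀ γ : Γ, ((γ : SL(2, ℤ)) : Matrix (Fin 2) (Fin 2) ℤ).trace ^ 2 ≤ 4 →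
        φ (Additive.ofMul γ) = 0 := Iff.rfl

end Fermat.Agent.S16Lib
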