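import Mathlib
import Fermat.Prelude.Def_ModularCurve_PeriodHomPair
import Fermat.Prelude.Def_ModularCurve_ModularUnit

set_option autoImplicit false

/-!
# S16, lower bound: the character `γ ↦ (a mod p) ^ 12` of `Γ₀(p)`
-/

namespace Fermat.Agent.S16Lib

open CongruenceSubgroup ModularCurve ModularCurve.Period
open scoped MatrixGroups

/-- upper left entry mod `N` -/
def aMap (N : ℕ) : Gamma0 N →* ZMod N where
  toFun γ := (((γ : SL(2, ℤ)) 0 0 : ℤ) : ZMod N)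
  map_one' := by simp
  map_mul' γ γ' := by
    have h : (((γ' : SL(2, ℤ)) 1 0 : ℤ) : ZMod N) = 0 := Gamma0_mem.mp γ'.2
    simp [Matrix.SpecialLinearGroup.coe_mul, Matrix.mul_apply, Fin.sum_univ_two, h]

theorem aMap_apply (N : ℕ) (γ : Gamma0 N) :
    aMap N γ = (((γ : SL(2, ℤ)) 0 0 : ℤ) : ZMod N) := rfl

/-- the character `γ ↦ a ^ 12`. -/
def chi (N : ℕ) : Gamma0 N →* (ZMod N)ˣ := (powMonoidHom 12).comp (aMap N).toHomUnits

theorem chi_val (N : ℕ) (γ : Gamma0 N) :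
    ((chi N γ : (ZMod N)ˣ) : ZMod N) = (((γ : SL(2, ℤ)) 0 0 : ℤ) : ZMod N) ^ 12 := by
  simp [chi, aMap_apply, MonoidHom.coe_toHomUnits]

theorem chi_eq_pow (N : ℕ) (γ : Gamma0 N) : chi N γ = (aMap N).toHomUnits γ ^ 12 := rfl

theorem chi_jConj (N : ℕ) (γ : Gamma0 N) : chi N (jConjGamma0 N γ) = chi N γ := by
  apply Units.ext
  rw [chi_val, chi_val]
  simp

theorem a_mul_d (N : ℕ) (γ : Gamma0 N) :
    (((γ : SL(2, ℤ)) 0 0 : ℤ) : ZMod N) * (((γ : SL(2, ℤ)) 1 1 : ℤ) : ZMod N) = 1 := by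
  have h : (((γ : SL(2, ℤ)) 1 0 : ℤ) : ZMod N) = 0 := Gamma0_mem.mp γ.2
  have hdet := congrArg (Int.cast : ℤ → ZMod N) (Matrix.SpecialLinearGroup.det_coe (γ : SL(2, ℤ)))
  rw [Matrix.det_fin_two] at hdet
  push_cast at hdet
  linear_combination hdet + (((γ : SL(2, ℤ)) 0 1 : ℤ) : ZMod N) * h

theorem chi_eq_one_of_trace (p : ℕ) [Fact p.Prime] (γ : Gamma0 p)
    (h : ((γ : SL(2, ℤ)) : Matrix (Fin 2) (Fin 2) ℤ).trace ^ 2 ≤ 4) : chi p γ = 1 := by
  apply Units.ext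
  rw [chi_val, Units.val_one]
  have had := a_mul_d p γ
  rw [Matrix.trace_fin_two] at h
  set a : ℤ := (γ : SL(2, ℤ)) 0 0 with ha
  set d : ℤ := (γ : SL(2, ℤ)) 1 1 with hd
  have hlo : -2 ≤ a + d := by nlinarith
  have hhi : a + d ≤ 2 := by nlinarith
  obtain ⟨t, ht⟩ : ∃ t : ℤ, a + d = t := ⟨_, rfl⟩
  have hq : (a : ZMod p) ^ 2 = (t : ZMod p) * a - 1 := by
    rw [← ht]; push_cast; linear_combination -had
  rw [ht] at hlo hhi
  interval_cases t
  · -- t = -2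
    have h1 : ((a : ZMod p) + 1) ^ 2 = 0 := by push_cast at hq; linear_combination hq
    have h2 : (a : ZMod p) = -1 := by
      have := pow_eq_zero_iff (two_ne_zero) |>.mp h1
      linear_combination this
    rw [h2]; ring
  · push_cast at hq
    have h3 : (a : ZMod p) ^ 3 = 1 := by linear_combination ((a : ZMod p) - 1) * hq
    calc (a : ZMod p) ^ 12 = ((a : ZMod p) ^ 3) ^ 4 := by ring
      _ = 1 := by rw [h3]; ring
  · push_cast at hq
    have h3 : (a : ZMod p) ^ 2 = -1 := by linear_combination hq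
    calc (a : ZMod p) ^ 12 = ((a : ZMod p) ^ 2) ^ 6 := by ring
      _ = 1 := by rw [h3]; ring
  · push_cast at hq
    have h3 : (a : ZMod p) ^ 3 = -1 := by linear_combination ((a : ZMod p) + 1) * hq
    calc (a : ZMod p) ^ 12 = ((a : ZMod p) ^ 3) ^ 4 := by ring
      _ = 1 := by rw [h3]; ring
  · have h1 : ((a : ZMod p) - 1) ^ 2 = 0 := by push_cast at hq; linear_combination hq
    have h2 : (a : ZMod p) = 1 := by
      have := pow_eq_zero_iff (two_ne_zero) |>.mp h1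
      linear_combination this
    rw [h2]; ring

theorem exists_aMap_eq (p : ℕ) [Fact p.Prime] (u : (ZMod p)ˣ) :
    ∃ γ : Gamma0 p, (aMap p).toHomUnits γ = u := by
  have hcop : IsCoprime ((u : ZMod p).val : ℤ) (p : ℤ) := by
    rw [Nat.isCoprime_iff_coprime]
    exact ZMod.val_coe_unit_coprime u
  obtain ⟨x, y, hxy⟩ := hcop
  -- x * a + y * p = 1 ; matrix [[a, -y],[p, x]]
  let g : SL(2, ℤ) := ⟨!![((u : ZMod p).val : ℤ), -y; (p : ℤ), x], by
    rw [Matrix.det_fin_two_of]; linear_combination hxy⟩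
  have hg : g ∈ Gamma0 p := by
    rw [Gamma0_mem]
    simp [g]
  refine ⟨⟨g, hg⟩, ?_⟩
  apply Units.ext
  rw [MonoidHom.coe_toHomUnits, aMap_apply]
  simp [g]

theorem eisensteinNumerator_dvd_of_chi (p : ℕ) [Fact p.Prime] (e : ℤ)
    (h : ∀ γ : Gamma0 p, chi p γ ^ e = 1) : (eisensteinNumerator p : ℤ) ∣ e := by
  have hp : p.Prime := Fact.out
  obtain ⟨g, hg⟩ := IsCyclic.exists_generator (α := (ZMod p)ˣ)
  obtain ⟨γ, hγ⟩ := exists_aMap_eq p g
  have h1 := h γ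
  rw [chi_eq_pow, hγ, ← zpow_natCast, ← zpow_mul] at h1
  have h2 : (orderOf g : ℤ) ∣ ((12 : ℕ) : ℤ) * e := orderOf_dvd_iff_zpow_eq_one.mpr h1
  rw [orderOf_eq_card_of_forall_mem_zpowers hg, Nat.card_eq_fintype_card, ZMod.card_units_eq_totient,
    Nat.totient_prime hp] at h2
  unfold eisensteinNumerator
  set G := Nat.gcd (p - 1) 12 with hG
  have hGpos : 0 < G := Nat.gcd_pos_of_pos_right _ (by norm_num)
  obtain ⟨m, hm⟩ : G ∣ p - 1 := Nat.gcd_dvd_left _ _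
  obtain ⟨k, hk⟩ : G ∣ 12 := Nat.gcd_dvd_right _ _
  have hcop : Nat.Coprime m k := by
    have := Nat.coprime_div_gcd_div_gcd (m := p - 1) (n := 12) hGpos
    rw [← hG] at this
    rwa [hm, hk, Nat.mul_div_cancel_left _ hGpos, Nat.mul_div_cancel_left _ hGpos] at this
  rw [hm, Nat.mul_div_cancel_left _ hGpos]
  rw [hm, hk] at h2
  push_cast at h2
  have h3 : (m : ℤ) ∣ (k : ℤ) * e := by
    have hG0 : (G : ℤ) ≠ 0 := by exact_mod_cast hGpos.ne'
    rw [mul_assoc] at h2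
    exact (mul_dvd_mul_iff_left hG0).mp h2
  exact (Nat.isCoprime_iff_coprime.mpr hcop).dvd_of_dvd_mul_left h3

end Fermat.Agent.S16Lib
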