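import Mathlib
import Fermat.Agent.S22.Main.Lattice
import Fermat.Agent.S21.Primitive

set_option autoImplicit false

/-!
# S16, lower bound: behaviour of the period map under Hecke operators
-/

namespace Fermat.Agent.S16Lib

open UpperHalfPlane Derivative Filter Function Matrix.SpecialLinearGroup
open CongruenceSubgroup ModularCurve ModularCurve.Period
open Fermat.Agent.S22Main Fermat.Agent.S21Lib
open scoped ModularForm Manifold MatrixGroups Topology

noncomputable section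

variable {N : ℕ} [NeZero N]

/-- the normalising constant -/
def c0 : ℂ := (2 * Real.pi * Complex.I : ℂ)⁻¹

theorem periodMap_eq_eich (f : CuspForm (Gamma0 N) 2) (γ : Gamma0 N) (z : ℍ) :
    periodMap N f (Additive.ofMul γ)
      = c0 * (eich N 0 f ((γ : SL(2, ℤ)) • z) - eich N 0 f z) := by
  obtain ⟨F, hF, -⟩ := exists_primitive f
  have hE := eich_cuspLike N 0 f
  have hD : D (eich N 0 f) = f := iterD_eich N 0 f
  have hz : Tendsto (c0 • eich N 0 f) atImInfty (𝓝 0) := by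
    have := hE.zero.const_smul c0
    rwa [smul_zero] at this
  have hEq : F = c0 • eich N 0 f :=
    primitive_unique hF.1 (hasDerivAt_of_D_eq hE.mdiff hD) hF.2.1 hz
  rw [periodMap_apply hF γ z, hEq]
  simp only [Pi.smul_apply, smul_eq_mul]
  ring

theorem slash_zero_GL (E : ℍ → ℂ) {g : GL (Fin 2) ℝ} (hg : 0 < g.val.det) (z : ℍ) :
    (E ∣[-((0 : ℕ) : ℤ)] g) z = ((g.val.det : ℝ) : ℂ)⁻¹ * E (g • z) := by
  have hdet : g.det.val = g.val.det := Matrix.GeneralLinearGroup.val_det_apply g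
  rw [ModularForm.slash_apply, σ_of_det_pos hg, hdet, abs_of_pos hg]
  simp
  ring

section Hecke

variable {ι : Type*} [Fintype ι] (δ : ι → GL (Fin 2) ℝ) (p : ℝ)

theorem eich_hecke_apply (hp : 0 < p) (hdet : ∀ x, (δ x).val.det = p) (hup : ∀ x, δ x 1 0 = 0)
    (t : Module.End ℂ (CuspForm (Gamma0 N) 2))
    (ht : ∀ f, ⇑(t f) = ∑ x, (f : ℍ → ℂ) ∣[(2 : ℤ)] δ x)
    (f : CuspForm (Gamma0 N) 2) (z : ℍ) :
    eich N 0 (t f) z = ∑ x, eich N 0 f (δ x • z) := by
  have hpC : (p : ℂ) ≠ 0 := Complex.ofReal_ne_zero.mpr hp.ne'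
  have h := eich_hecke (N := N) (n := 0) δ p hp hdet hup t ht f
  have h2 := congrFun h z
  rw [h2]
  simp only [Pi.smul_apply, Finset.sum_apply, smul_eq_mul, Finset.mul_sum]
  refine Finset.sum_congr rfl fun x _ => ?_
  rw [slash_zero_GL _ (by rw [hdet]; exact hp), hdet, zero_add, pow_one, ← mul_assoc,
    mul_inv_cancel₀ hpC, one_mul]

theorem periodMap_hecke (hp : 0 < p) (hdet : ∀ x, (δ x).val.det = p) (hup : ∀ x, δ x 1 0 = 0)
    (t : Module.End ℂ (CuspForm (Gamma0 N) 2))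
    (ht : ∀ f, ⇑(t f) = ∑ x, (f : ℍ → ℂ) ∣[(2 : ℤ)] δ x)
    (γ : Gamma0 N) (π : Equiv.Perm ι) (γ' : ι → Gamma0 N)
    (hmul : ∀ x, δ x * mapGL ℝ (γ : SL(2, ℤ)) = mapGL ℝ (γ' x : SL(2, ℤ)) * δ (π x))
    (f : CuspForm (Gamma0 N) 2) :
    periodMap N (t f) (Additive.ofMul γ) = ∑ x, periodMap N f (Additive.ofMul (γ' x)) := by
  rw [periodMap_eq_eich (t f) γ I, eich_hecke_apply δ p hp hdet hup t ht,
    eich_hecke_apply δ p hp hdet hup t ht,
    ← Equiv.sum_comp π (fun x => eich N 0 f (δ x • I)), ← Finset.sum_sub_distrib, Finset.mul_sum]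
  refine Finset.sum_congr rfl fun x _ => ?_
  rw [periodMap_eq_eich f (γ' x) (δ (π x) • I)]
  congr 3
  show δ x • (mapGL ℝ (γ : SL(2, ℤ)) • I) = mapGL ℝ (γ' x : SL(2, ℤ)) • (δ (π x) • I)
  rw [← mul_smul, ← mul_smul, hmul]

end Hecke

end

end Fermat.Agent.S16Lib
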