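import Mathlib
import Fermat.Agent.S16.Lower.Transfer
import Fermat.Agent.S16.Lower.Chi
import Fermat.Agent.S22.Main.Final
import Fermat.Prelude.Def_CuspForm_HeckeEvalForms

set_option autoImplicit false

/-!
# S16, lower bound: Hecke operators transfer periods and the character `chi` compatibly
-/

namespace Fermat.Agent.S16Lib

open UpperHalfPlane Matrix.SpecialLinearGroup
open CongruenceSubgroup ModularCurve ModularCurve.Period
open Fermat.Agent.S22Main Fermat.Agent.S21Lib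
open P2MW.S_ModularForm_heckeT_slash_eq_self_of_mem_Gamma0.ModularForm.HeckeSlashInvariance
open scoped ModularForm Manifold MatrixGroups Topology

noncomputable section

section General

variable {N : ℕ} [NeZero N]

theorem aMap_transfer {δ δ' : GL (Fin 2) ℝ} {a₀ b₀ a₁ : ℤ}
    (h00 : δ 0 0 = a₀) (h01 : δ 0 1 = b₀) (h00' : δ' 0 0 = a₁) (h10' : δ' 1 0 = 0)
    (γ γ' : Gamma0 N)
    (hmul : δ * mapGL ℝ (γ : SL(2, ℤ)) = mapGL ℝ (γ' : SL(2, ℤ)) * δ') :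
    (a₀ : ZMod N) * aMap N γ = aMap N γ' * (a₁ : ZMod N) := by
  have h := congrArg (fun g : GL (Fin 2) ℝ => g 0 0) hmul
  simp only [Matrix.GeneralLinearGroup.coe_mul, Matrix.mul_apply, Fin.sum_univ_two, h00, h01,
    h00', h10'] at h
  have e00 : (mapGL ℝ (γ : SL(2, ℤ))) 0 0 = (((γ : SL(2, ℤ)) 0 0 : ℤ) : ℝ) := by simp
  have e10 : (mapGL ℝ (γ : SL(2, ℤ))) 1 0 = (((γ : SL(2, ℤ)) 1 0 : ℤ) : ℝ) := by simp
  have e00' : (mapGL ℝ (γ' : SL(2, ℤ))) 0 0 = (((γ' : SL(2, ℤ)) 0 0 : ℤ) : ℝ) := by simp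
  rw [e00, e10, e00', mul_zero, add_zero] at h
  have hZ : a₀ * (γ : SL(2, ℤ)) 0 0 + b₀ * (γ : SL(2, ℤ)) 1 0 = (γ' : SL(2, ℤ)) 0 0 * a₁ := by
    exact_mod_cast h
  have hc : (((γ : SL(2, ℤ)) 1 0 : ℤ) : ZMod N) = 0 := Gamma0_mem.mp γ.2
  have hZ' := congrArg (Int.cast : ℤ → ZMod N) hZ
  push_cast at hZ'
  rw [hc, mul_zero, add_zero] at hZ'
  exact hZ'

theorem prod_chi_transfer {ι : Type*} [Fintype ι] (δ : ι → GL (Fin 2) ℝ) (a₀ b₀ : ι → ℤ)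
    (h00 : ∀ x, δ x 0 0 = a₀ x) (h01 : ∀ x, δ x 0 1 = b₀ x) (h10 : ∀ x, δ x 1 0 = 0)
    (hu : ∀ x, IsUnit (a₀ x : ZMod N))
    (γ : Gamma0 N) (π : Equiv.Perm ι) (γ' : ι → Gamma0 N)
    (hmul : ∀ x, δ x * mapGL ℝ (γ : SL(2, ℤ)) = mapGL ℝ (γ' x : SL(2, ℤ)) * δ (π x)) :
    ∏ x, chi N (γ' x) = chi N γ ^ Fintype.card ι := by
  have h1 : ∀ x, (a₀ x : ZMod N) * aMap N γ = aMap N (γ' x) * (a₀ (π x) : ZMod N) := fun x =>
    aMap_transfer (h00 x) (h01 x) (h00 (π x)) (h10 (π x)) γ (γ' x) (hmul x)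
  have h2 : (∏ x, (a₀ x : ZMod N)) * aMap N γ ^ Fintype.card ι
      = (∏ x, aMap N (γ' x)) * ∏ x, (a₀ x : ZMod N) := by
    rw [← Equiv.prod_comp π (fun x => (a₀ x : ZMod N)), ← Finset.prod_mul_distrib,
      ← Finset.prod_congr rfl (fun x _ => h1 x), Finset.prod_mul_distrib,
      Equiv.prod_comp π (fun x => (a₀ x : ZMod N))]
    simp
  have hU : IsUnit (∏ x, (a₀ x : ZMod N)) := by
    rw [IsUnit.prod_univ_iff]
    exact hu
  have h3 : ∏ x, aMap N (γ' x) = aMap N γ ^ Fintype.card ι := by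
    rw [mul_comm] at h2
    exact (hU.mul_right_cancel h2).symm
  have h4 : ∏ x, (aMap N).toHomUnits (γ' x) = (aMap N).toHomUnits γ ^ Fintype.card ι := by
    apply Units.ext
    rw [Units.coe_prod, Units.val_pow_eq_pow_val]
    simpa [MonoidHom.coe_toHomUnits] using h3
  simp only [chi_eq_pow]
  rw [Finset.prod_pow, h4, ← pow_mul, ← pow_mul, mul_comm]

/-- `T` transfers periods along `γ ↦ γ'` while raising `chi` to the power `e`. -/
def Good (N : ℕ) [NeZero N] (T : Module.End ℂ (CuspForm (Gamma0 N) 2)) (e : ℤ) : Prop :=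
  ∀ γ : Gamma0 N, ∃ γ' : Gamma0 N,
    (∀ f, periodMap N (T f) (Additive.ofMul γ) = periodMap N f (Additive.ofMul γ')) ∧
      chi N γ' = chi N γ ^ e

theorem Good.add {S T : Module.End ℂ (CuspForm (Gamma0 N) 2)} {d e : ℤ}
    (hS : Good N S d) (hT : Good N T e) : Good N (S + T) (d + e) := by
  intro γ
  obtain ⟨γ₁, h₁, c₁⟩ := hS γ
  obtain ⟨γ₂, h₂, c₂⟩ := hT γ
  refine ⟨γ₁ * γ₂, fun f => ?_, ?_⟩
  · rw [LinearMap.add_apply, ← pml_apply, map_add, AddMonoidHom.add_apply, pml_apply, pml_apply,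
      h₁, h₂, ofMul_mul, map_add]
  · rw [map_mul, c₁, c₂, zpow_add]

theorem Good.mul {S T : Module.End ℂ (CuspForm (Gamma0 N) 2)} {d e : ℤ}
    (hS : Good N S d) (hT : Good N T e) : Good N (S * T) (d * e) := by
  intro γ
  obtain ⟨γ₁, h₁, c₁⟩ := hS γ
  obtain ⟨γ₂, h₂, c₂⟩ := hT γ₁
  refine ⟨γ₂, fun f => ?_, ?_⟩
  · rw [Module.End.mul_apply, h₁, h₂]
  · rw [c₂, c₁, zpow_mul]

theorem Good.algebraMap (a : ℤ) :
    Good N (algebraMap ℤ (Module.End ℂ (CuspForm (Gamma0 N) 2)) a) a := by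
  intro γ
  refine ⟨γ ^ a, fun f => ?_, ?_⟩
  · rw [Module.algebraMap_end_apply, ← pml_apply, map_zsmul, AddMonoidHom.zsmul_apply, pml_apply,
      ofMul_zpow, map_zsmul]
  · rw [map_zpow]

theorem exists_prod {ι : Type*} (s : Finset ι) (γ' : ι → Gamma0 N) :
    ∃ γ'' : Gamma0 N,
      (∀ f, periodMap N f (Additive.ofMul γ'') = ∑ x ∈ s, periodMap N f (Additive.ofMul (γ' x))) ∧
      chi N γ'' = ∏ x ∈ s, chi N (γ' x) := by
  classical
  induction s using Finset.induction_on with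
  | empty => exact ⟨1, fun f => by simp, by simp⟩
  | insert a s ha ih =>
    obtain ⟨g, h1, h2⟩ := ih
    refine ⟨γ' a * g, fun f => ?_, ?_⟩
    · rw [Finset.sum_insert ha, ofMul_mul, map_add, h1]
    · rw [Finset.prod_insert ha, map_mul, h2]

theorem good_of_reps {ι : Type*} [Fintype ι] (δ : ι → GL (Fin 2) ℝ) (p : ℝ) (a₀ b₀ : ι → ℤ)
    (hp : 0 < p) (hdet : ∀ x, (δ x).val.det = p)
    (h00 : ∀ x, δ x 0 0 = a₀ x) (h01 : ∀ x, δ x 0 1 = b₀ x) (h10 : ∀ x, δ x 1 0 = 0)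
    (hu : ∀ x, IsUnit (a₀ x : ZMod N))
    (t : Module.End ℂ (CuspForm (Gamma0 N) 2))
    (ht : ∀ f, ⇑(t f) = ∑ x, (f : ℍ → ℂ) ∣[(2 : ℤ)] δ x)
    (hperm : ∀ γ ∈ Gamma0 N, ∃ π : Equiv.Perm ι, ∀ x, ∃ γ' ∈ Gamma0 N,
      δ x * mapGL ℝ γ = mapGL ℝ γ' * δ (π x)) :
    Good N t (Fintype.card ι) := by
  intro γ
  obtain ⟨π, hπ⟩ := hperm γ γ.2
  choose g hg hmul using hπ
  let γ' : ι → Gamma0 N := fun x => ⟨g x, hg x⟩
  obtain ⟨γ'', h1, h2⟩ := exists_prod Finset.univ γ'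
  refine ⟨γ'', fun f => ?_, ?_⟩
  · rw [h1, periodMap_hecke δ p hp hdet h10 t ht γ π γ' hmul f]
  · rw [h2, prod_chi_transfer δ a₀ b₀ h00 h01 h10 hu γ π γ' hmul, zpow_natCast]

end General

end

end Fermat.Agent.S16Lib
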