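import Mathlib
import Fermat.Agent.S16.Lower.Good

set_option autoImplicit false

/-!
# S16, lower bound: every Hecke polynomial is `Good` with exponent its Eisenstein value
-/

namespace Fermat.Agent.S16Lib

open UpperHalfPlane Matrix.SpecialLinearGroup
open CongruenceSubgroup ModularCurve ModularCurve.Period
open Fermat.Agent.S22Main Fermat.Agent.S21Lib
open P2MW.S_ModularForm_heckeT_slash_eq_self_of_mem_Gamma0.ModularForm.HeckeSlashInvariance
open scoped ModularForm Manifold MatrixGroups Topology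

noncomputable section

variable (p : ℕ) [Fact p.Prime]

theorem good_heckeT {ℓ : ℕ} (hℓ : ℓ.Prime) (hℓp : ¬ ℓ ∣ p) :
    Good p (CuspForm.heckeTLin 2 hℓ hℓp) (1 + (ℓ : ℤ)) := by
  have : Fact ℓ.Prime := ⟨hℓ⟩
  have h0 : ℓ ≠ 0 := hℓ.ne_zero
  have hp : p.Prime := Fact.out
  have hcard : ((Fintype.card (OnePoint (ZMod ℓ)) : ℕ) : ℤ) = 1 + (ℓ : ℤ) := by
    have : Fintype.card (OnePoint (ZMod ℓ)) = ℓ + 1 := by
      rw [show Fintype.card (OnePoint (ZMod ℓ)) = Fintype.card (Option (ZMod ℓ)) from rfl,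
        Fintype.card_option, ZMod.card]
    rw [this]; push_cast; ring
  rw [← hcard]
  refine good_of_reps (heckeRep ℓ) (ℓ : ℝ)
    (fun x => x.elim (ℓ : ℤ) (fun _ => 1)) (fun x => x.elim 0 (fun j => (j.val : ℤ)))
    (by exact_mod_cast hℓ.pos) ?_ ?_ ?_ ?_ ?_ _ ?_ ?_
  · intro x
    induction x using OnePoint.rec with
    | infty => exact val_det_heckeDiagMatrix h0
    | coe j => exact val_det_heckeMatrix h0 _
  · intro x
    induction x using OnePoint.rec with
    | infty =>
      show (ModularForm.heckeDiagMatrix ℓ).val 0 0 = _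
      rw [ModularForm.val_heckeDiagMatrix h0]; simp
    | coe j =>
      show (ModularForm.heckeMatrix ℓ j.val).val 0 0 = _
      rw [ModularForm.val_heckeMatrix h0]; simp
  · intro x
    induction x using OnePoint.rec with
    | infty =>
      show (ModularForm.heckeDiagMatrix ℓ).val 0 1 = _
      rw [ModularForm.val_heckeDiagMatrix h0]; simp
    | coe j =>
      show (ModularForm.heckeMatrix ℓ j.val).val 0 1 = _
      rw [ModularForm.val_heckeMatrix h0]; simp
  · intro x
    induction x using OnePoint.rec with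
    | infty =>
      show (ModularForm.heckeDiagMatrix ℓ).val 1 0 = 0
      rw [ModularForm.val_heckeDiagMatrix h0]; simp
    | coe j =>
      show (ModularForm.heckeMatrix ℓ j.val).val 1 0 = 0
      rw [ModularForm.val_heckeMatrix h0]; simp
  · intro x
    induction x using OnePoint.rec with
    | infty =>
      show IsUnit (((ℓ : ℤ) : ℤ) : ZMod p)
      rw [Int.cast_natCast, ZMod.isUnit_iff_coprime]
      exact (Nat.coprime_primes hℓ hp).mpr (fun h => hℓp (h ▸ dvd_rfl))
    | coe j =>
      show IsUnit ((1 : ℤ) : ZMod p)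
      simp
  · intro f
    rw [CuspForm.coe_heckeTLin_apply, heckeT_eq_sum_onePoint]
  · intro γ hγ
    have hcN : (p : ℤ) ∣ γ 1 0 :=
      (ZMod.intCast_zmod_eq_zero_iff_dvd _ _).mp (Gamma0_mem.mp hγ)
    refine ⟨MulAction.toPerm (redMatrix ℓ γ), fun x => ?_⟩
    obtain ⟨g', hg', hmul⟩ := heckeRep_mul hℓp γ hcN x
    exact ⟨g', Gamma0_mem.mpr ((ZMod.intCast_zmod_eq_zero_iff_dvd _ _).mpr hg'), hmul⟩

theorem good_heckeU (hpp : p ∣ p) : Good p (CuspForm.heckeULin 2 hpp) 1 := by
  have hp : p.Prime := Fact.out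
  have h0 : p ≠ 0 := hp.ne_zero
  have h : Good p (CuspForm.heckeULin 2 hpp) (Fintype.card (ZMod p) : ℕ) := by
    refine good_of_reps (fun x : ZMod p => ModularForm.heckeMatrix p x.val) (p : ℝ)
      (fun _ => 1) (fun j => (j.val : ℤ))
      (by exact_mod_cast hp.pos) ?_ ?_ ?_ ?_ ?_ _ ?_ ?_
    · intro x
      exact val_det_heckeMatrix h0 _
    · intro x
      show (ModularForm.heckeMatrix p x.val).val 0 0 = _
      rw [ModularForm.val_heckeMatrix h0]; simp
    · intro x
      show (ModularForm.heckeMatrix p x.val).val 0 1 = _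
      rw [ModularForm.val_heckeMatrix h0]; simp
    · intro x
      show (ModularForm.heckeMatrix p x.val).val 1 0 = 0
      rw [ModularForm.val_heckeMatrix h0]; simp
    · intro x
      simp
    · intro f
      rw [CuspForm.coe_heckeULin_apply, heckeU_eq_sum_zmod]
    · intro γ hγ
      have hc : (p : ℤ) ∣ γ 1 0 :=
        (ZMod.intCast_zmod_eq_zero_iff_dvd _ _).mp (Gamma0_mem.mp hγ)
      refine ⟨affinePerm γ ((ZMod.intCast_zmod_eq_zero_iff_dvd _ _).mpr hc), fun x => ?_⟩
      obtain ⟨g', hg', hmul⟩ := heckeMatrix_mul_of_dvd γ hc x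
      refine ⟨g', ?_, hmul⟩
      rw [Gamma0_mem, hg']
      push_cast
      rw [Gamma0_mem.mp hγ, mul_zero]
  intro γ
  obtain ⟨γ', h1, h2⟩ := h γ
  refine ⟨γ', h1, ?_⟩
  rw [h2, zpow_natCast, zpow_one, ZMod.card]
  have := ZMod.units_pow_card_sub_one_eq_one p (chi p γ)
  calc chi p γ ^ p = chi p γ ^ (p - 1 + 1) := by rw [Nat.sub_add_cancel hp.one_le]
    _ = chi p γ := by rw [pow_succ, this, one_mul]

theorem good_eval (t : HeckeAlg) :
    Good p ((CuspForm.heckeEvalForms p 2 t : CuspForm.heckeAlgebra p 2 ∅) :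
      Module.End ℂ (CuspForm (Gamma0 p) 2)) (MvPolynomial.aeval (eisensteinSystem p) t) := by
  induction t using MvPolynomial.induction_on with
  | C a =>
    rw [CuspForm.heckeEvalForms_C, MvPolynomial.aeval_C]
    exact Good.algebraMap a
  | add s t hs ht =>
    rw [map_add, map_add]
    exact hs.add ht
  | mul_X s ℓ hs =>
    rw [map_mul, map_mul, MvPolynomial.aeval_X]
    refine Good.mul hs ?_
    have hX : CuspForm.heckeEvalForms p 2 (MvPolynomial.X ℓ) = CuspForm.heckeFormsGen p 2 ℓ :=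
      CuspForm.heckeEvalForms_heckeGen p 2 ℓ
    rw [hX]
    by_cases h : (ℓ : ℕ) ∣ p
    · rw [CuspForm.heckeFormsGen_of_dvd h, eisensteinSystem_of_dvd h, CuspForm.heckeAlgebra.coe_U]
      have hp : p.Prime := Fact.out
      have hℓp : (ℓ : ℕ) = p := (Nat.prime_dvd_prime_iff_eq ℓ.2 hp).mp h
      obtain ⟨l, hl⟩ := ℓ
      simp only at hℓp h ⊢
      subst hℓp
      exact good_heckeU _ h
    · rw [CuspForm.heckeFormsGen_of_not_dvd h, eisensteinSystem_of_not_dvd h,
        CuspForm.heckeAlgebra.coe_T]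
      exact good_heckeT p ℓ.2 h

end

end Fermat.Agent.S16Lib
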