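import Mathlib
import Fermat.Agent.S16.Lower.Eval
import Fermat.Agent.S16.Lower.Conj
import Fermat.Agent.S16.Lower.Defs
import Fermat.Agent.S21
import Fermat.Agent.S23
import Fermat.Prelude.Def_CuspForm_HeckeLocal

set_option autoImplicit false

/-!
# S16, lower bound `n ∣ m`: a Hecke polynomial acting as zero has Eisenstein value divisible
by the Eisenstein numerator (modulo the torsion-freeness statement `TFStmt`).
-/

namespace Fermat.Agent.S16Lib

open CongruenceSubgroup ModularCurve ModularCurve.Period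
open Fermat.Agent.S21Lib
open scoped MatrixGroups ComplexConjugate

noncomputable section

theorem forall_parabolicHoms_eq_zero (N : ℕ) [NeZero N] (γ : Gamma0 N)
    (h : ∀ f, periodMap N f (Additive.ofMul γ) = 0) :
    ∀ ψ ∈ parabolicHoms ℂ (Gamma0 N) ℂ, ψ (Additive.ofMul γ) = 0 := by
  intro ψ hψ
  rw [← (Fermat.Agent.S21.result N).2] at hψ
  obtain ⟨⟨f, g⟩, rfl⟩ := hψ
  obtain ⟨pml, hpml, heq⟩ := periodHomPair_def N (existsPeriodMapLinear N)
  have hj : ∀ f, periodMap N f (Additive.ofMul (jConjGamma0 N γ)) = 0 := by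
    intro f
    obtain ⟨g, hg⟩ := periodMap_jConj f
    rw [hg γ, h g]
    simp
  rw [heq]
  simp only [LinearMap.coprod_apply, LinearMap.comp_apply, LinearMap.add_apply,
    LinearMap.sub_apply, LinearMap.id_apply, hpml, AddMonoidHom.add_apply,
    AddMonoidHom.sub_apply, charInvolution_apply, toMul_ofMul, h, hj]
  simp

theorem hdim_Gamma0 (N : ℕ) [NeZero N] :
    (Gamma0 N).index + 12 ≤ 6 * Module.finrank ℂ (parabolicHoms ℂ (Gamma0 N) ℂ)
      + 3 * Nat.card {x : SL(2, ℤ) ⧸ Gamma0 N // ModularGroup.S • x = x}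
      + 4 * Nat.card {x : SL(2, ℤ) ⧸ Gamma0 N // (ModularGroup.S * ModularGroup.T) • x = x}
      + 6 * Nat.card (MulAction.orbitRel.Quotient (Subgroup.zpowers ModularGroup.T)
          (SL(2, ℤ) ⧸ Gamma0 N)) := by
  rw [S20Lib.index_Gamma0, S20Lib.card_fixed_S, S20Lib.card_fixed_ST, S20Lib.card_orbits_T]
  obtain ⟨hinj, hrange⟩ := Fermat.Agent.S21.result N
  have hfd := finiteDimensional_cuspForm N
  rw [← hrange, LinearMap.finrank_range_of_inj hinj, Module.finrank_prod]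
  have hdim := Fermat.Agent.S20.result N
  rw [genusFormula] at hdim
  have : ((dedekindPsi N + 12 : ℕ) : ℚ) ≤ ((6 * (Module.finrank ℂ (CuspForm (Gamma0 N) 2)
      + Module.finrank ℂ (CuspForm (Gamma0 N) 2)) + 3 * nuTwo N + 4 * nuThree N
      + 6 * cuspCount N : ℕ) : ℚ) := by
    push_cast
    rw [hdim]
    linarith
  exact_mod_cast this

/-- the statement of `Torsion.lean` for `Γ₀(N)` -/
def TFStmt (N : ℕ) : Prop :=
  ∀ (χ : Gamma0 N →* (ZMod N)ˣ),
    (∀ γ : Gamma0 N, ((γ : SL(2, ℤ)) : Matrix (Fin 2) (Fin 2) ℤ).trace ^ 2 ≤ 4 → χ γ = 1) →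
    ∀ γ : Gamma0 N, (∀ ψ ∈ parabolicHoms ℂ (Gamma0 N) ℂ, ψ (Additive.ofMul γ) = 0) → χ γ = 1

theorem eisensteinNumerator_dvd_of_eval_eq_zero (p : ℕ) [Fact p.Prime] (hTF : TFStmt p)
    (t : HeckeAlg) (ht : CuspForm.heckeEvalForms p 2 t = 0) :
    (eisensteinNumerator p : ℤ) ∣ MvPolynomial.aeval (eisensteinSystem p) t := by
  apply eisensteinNumerator_dvd_of_chi
  intro γ
  obtain ⟨γ', h1, h2⟩ := good_eval p t γ
  rw [← h2]
  refine hTF (chi p) (chi_eq_one_of_trace p) γ' (forall_parabolicHoms_eq_zero p γ' fun f => ?_)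
  rw [← h1, ht]
  simp [← pml_apply]

theorem eisensteinNumerator_dvd_of_lattice_eq_zero (p : ℕ) [Fact p.Prime] (hTF : TFStmt p)
    (t : HeckeAlg)
    (ht : ((CuspForm.latticeRestrictHom p ∅).toRingHom.comp (CuspForm.heckeEvalForms p 2)) t = 0) :
    (eisensteinNumerator p : ℤ) ∣ MvPolynomial.aeval (eisensteinSystem p) t := by
  apply eisensteinNumerator_dvd_of_eval_eq_zero p hTF
  apply (CuspForm.latticeRestrictHom_bijective p ∅ (Fermat.Agent.S23.result p)).1
  rw [map_zero]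
  exact ht

end

end Fermat.Agent.S16Lib
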