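import Mathlib
import Fermat.Agent.S16.Lower.Defs
import Fermat.Agent.S21.GroupBound

/-!
# S16, lower bound, leaf (GK): the group-theoretic dimension bound over an arbitrary field

For a finite index subgroup `Γ` of `SL(2, ℤ)` containing `-1` and any field `K`,
`dim Hom_{ell,par}(Γ, K) ≤ 2 + d - m_S - m_U - m_T`.
-/

open CongruenceSubgroup ModularCurve ModularCurve.Period
open scoped MatrixGroups

namespace Fermat.Agent.S16Lib

open Module Finset Fermat.Agent.S21Lib

section Abstract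

variable {K : Type*} [Field K] {G X : Type*} [Group G] [MulAction G X]

/-- The elements of `G` leaving a function on `X` invariant. -/
def gk_stab (l : X → K) : Subgroup G where
  carrier := {h | ∀ x, l (h • x) = l x}
  mul_mem' := fun {a b} ha hb x => by rw [mul_smul, ha, hb]
  one_mem' := fun x => by rw [one_smul]
  inv_mem' := fun {a} ha x => by
    have := ha (a⁻¹ • x)
    rw [smul_inv_smul] at this
    exact this.symm

variable (K) in
/-- The functions on `X` invariant under `g`. -/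
def gk_inv (g : G) : Submodule K (X → K) where
  carrier := {l | ∀ x, l (g • x) = l x}
  add_mem' := fun {a b} ha hb x => by simp [ha x, hb x]
  zero_mem' := fun x => rfl
  smul_mem' := fun c a ha x => by simp [ha x]

/-- A `g`-coboundary is orthogonal to the `g`-invariant functions. -/
theorem gk_orth [Fintype X] (g : G) (h : X → K) {l : X → K} (hl : l ∈ gk_inv K g) :
    ∑ x, l x * (h (g • x) - h x) = 0 := by
  have h1 : ∑ x, l x * h (g • x) = ∑ x, l x * h x := by
    rw [← Equiv.sum_comp (MulAction.toPerm g) (fun x => l x * h x)]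
    refine Finset.sum_congr rfl fun x _ => ?_
    simp only [MulAction.toPerm_apply]
    rw [hl x]
  simp only [mul_sub, Finset.sum_sub_distrib, h1, sub_self]

theorem gk_finrank_le_range_add_one {V V' : Type*} [AddCommGroup V] [Module K V]
    [FiniteDimensional K V] [AddCommGroup V'] [Module K V'] (f : V →ₗ[K] V') (v0 : V)
    (h : ∀ v, f v = 0 → ∃ c : K, v = c • v0) :
    finrank K V ≤ finrank K (LinearMap.range f) + 1 := by
  have h1 : LinearMap.ker f ≤ Submodule.span K {v0} := fun v hv => by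
    obtain ⟨c, rfl⟩ := h v hv
    exact Submodule.smul_mem _ _ (Submodule.mem_span_singleton_self _)
  have h2 : finrank K (LinearMap.ker f) ≤ 1 :=
    (Submodule.finrank_mono h1).trans (by simpa using finrank_span_le_card (R := K) ({v0} : Set V))
  have := f.finrank_range_add_finrank_ker
  omega

/-- The map `(λ, μ, ρ) ↦ (λ - ρ, μ + ρ)`. -/
def gk_J (s u t : G) : (gk_inv K (X := X) s × gk_inv K (X := X) u × gk_inv K (X := X) t) →ₗ[K]
    (X → K) × (X → K) where
  toFun p := ((p.1 : X → K) - (p.2.2 : X → K), (p.2.1 : X → K) + (p.2.2 : X → K))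
  map_add' p q := by
    ext x <;> simp <;> ring
  map_smul' c p := by
    ext x <;> simp <;> ring

/-- The standard perfect pairing on `(X → K) × (X → K)`. -/
def gk_pair [Fintype X] : ((X → K) × (X → K)) →ₗ[K] Module.Dual K ((X → K) × (X → K)) :=
  LinearMap.mk₂ K (fun w v => ∑ x, v.1 x * w.1 x + ∑ x, v.2 x * w.2 x)
    (fun a b v => by
      simp only [Prod.fst_add, Prod.snd_add, Pi.add_apply, mul_add, Finset.sum_add_distrib]; ring)
    (fun c a v => by
      simp only [Prod.smul_fst, Prod.smul_snd, Pi.smul_apply, smul_eq_mul, Finset.mul_sum, mul_add]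
      congr 1 <;> exact Finset.sum_congr rfl fun x _ => by ring)
    (fun w a b => by
      simp only [Prod.fst_add, Prod.snd_add, Pi.add_apply, add_mul, Finset.sum_add_distrib]; ring)
    (fun c w a => by
      simp only [Prod.smul_fst, Prod.smul_snd, Pi.smul_apply, smul_eq_mul, Finset.mul_sum, mul_add]
      congr 1 <;> exact Finset.sum_congr rfl fun x _ => by ring)

theorem gk_pair_apply [Fintype X] (w v : (X → K) × (X → K)) :
    gk_pair w v = ∑ x, v.1 x * w.1 x + ∑ x, v.2 x * w.2 x := rfl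

theorem gk_pair_injective [Fintype X] :
    Function.Injective (gk_pair (K := K) (X := X)) := by
  classical
  rw [injective_iff_map_eq_zero]
  intro w hw
  ext x
  · have := LinearMap.congr_fun hw (Pi.single x 1, 0)
    simpa [gk_pair_apply, Pi.single_apply] using this
  · have := LinearMap.congr_fun hw (0, Pi.single x 1)
    simpa [gk_pair_apply, Pi.single_apply] using this

theorem gk_dim_bound [Fintype X] (x0 : X) (s u t : G)
    (hconst : ∀ l : X → K, l ∈ gk_inv K s → l ∈ gk_inv K t → ∀ x, l x = l x0)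
    (W : Submodule K ((X → K) × (X → K)))
    (hW : ∀ w ∈ W, (∀ l ∈ gk_inv K s, ∑ x, l x * w.1 x = 0) ∧
      (∀ l ∈ gk_inv K u, ∑ x, l x * w.2 x = 0) ∧
      (∀ l ∈ gk_inv K t, ∑ x, l x * (w.2 x - w.1 x) = 0)) :
    finrank K W + finrank K (gk_inv K (X := X) s) + finrank K (gk_inv K (X := X) u)
      + finrank K (gk_inv K (X := X) t) ≤ 2 * Fintype.card X + 1 := by
  classical
  have hone : ∀ g : G, (fun _ : X => (1 : K)) ∈ gk_inv K g := fun g x => rfl
  -- the kernel of `J` is at most one-dimensional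
  have h1 := gk_finrank_le_range_add_one (gk_J (K := K) (X := X) s u t)
    (⟨_, hone s⟩, -⟨_, hone u⟩, ⟨_, hone t⟩) (by
      rintro ⟨⟨l, hl⟩, ⟨m, hm⟩, ⟨r, hr⟩⟩ h
      simp only [gk_J, LinearMap.coe_mk, AddHom.coe_mk, Prod.mk_eq_zero] at h
      obtain ⟨h1, h2⟩ := h
      have hlr : l = r := sub_eq_zero.mp h1
      have hmr : m = -r := eq_neg_of_add_eq_zero_left h2
      subst hlr
      subst hmr
      have hc := hconst l hl hr
      refine ⟨l x0, ?_⟩
      ext x <;> simp [hc x])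
  -- `W` is orthogonal to the range of `J`
  have h2 : W.map gk_pair ≤ (LinearMap.range (gk_J (K := K) (X := X) s u t)).dualAnnihilator := by
    rintro _ ⟨w, hw, rfl⟩
    rw [Submodule.mem_dualAnnihilator]
    rintro _ ⟨⟨⟨l, hl⟩, ⟨m, hm⟩, ⟨r, hr⟩⟩, rfl⟩
    obtain ⟨a1, a2, a3⟩ := hW _ hw
    have b1 := a1 _ hl
    have b2 := a2 _ hm
    have b3 := a3 _ hr
    rw [gk_pair_apply]
    simp only [gk_J, LinearMap.coe_mk, AddHom.coe_mk, Pi.sub_apply, Pi.add_apply]
    simp only [mul_sub, Finset.sum_sub_distrib] at b3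
    simp only [sub_mul, add_mul, Finset.sum_sub_distrib, Finset.sum_add_distrib]
    linear_combination b1 + b2 + b3
  have h3 : finrank K (W.map (gk_pair (K := K) (X := X))) = finrank K W :=
    (Submodule.equivMapOfInjective _ gk_pair_injective W).finrank_eq.symm
  have h4 := Subspace.finrank_add_finrank_dualAnnihilator_eq
    (LinearMap.range (gk_J (K := K) (X := X) s u t))
  have h5 := Submodule.finrank_mono h2
  have h6 : finrank K ((X → K) × (X → K)) = 2 * Fintype.card X := by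
    simp [two_mul]
  have h7 : finrank K (gk_inv K (X := X) s × gk_inv K (X := X) u × gk_inv K (X := X) t)
      = finrank K (gk_inv K (X := X) s) + (finrank K (gk_inv K (X := X) u)
        + finrank K (gk_inv K (X := X) t)) := by
    rw [Module.finrank_prod, Module.finrank_prod]
  omega

theorem gk_finrank_inv_eq_card_orbits [Finite X] (g : G) :
    finrank K (gk_inv K (X := X) g)
      = Nat.card (MulAction.orbitRel.Quotient (Subgroup.zpowers g) X) := by
  classical
  have : Fintype (MulAction.orbitRel.Quotient (Subgroup.zpowers g) X) := Fintype.ofFinite _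
  let Φ : (MulAction.orbitRel.Quotient (Subgroup.zpowers g) X → K) →ₗ[K] gk_inv K (X := X) g :=
    { toFun := fun f => ⟨fun x => f (Quotient.mk'' x), fun x => by
        show f (Quotient.mk'' (g • x)) = f (Quotient.mk'' x)
        congr 1
        apply Quotient.sound'
        rw [MulAction.orbitRel_apply]
        exact ⟨⟨g, Subgroup.mem_zpowers g⟩, rfl⟩⟩
      map_add' := fun a b => rfl
      map_smul' := fun c a => rfl }
  have hbij : Function.Bijective Φ := by
    constructor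
    · intro a b hab
      ext q
      induction q using Quotient.inductionOn' with
      | h x => exact congrFun (congrArg Subtype.val hab) x
    · rintro ⟨l, hl⟩
      have hz : Subgroup.zpowers g ≤ gk_stab (G := G) l := by
        rw [Subgroup.zpowers_le]; exact hl
      refine ⟨fun q => Quotient.liftOn' q l ?_, ?_⟩
      · intro a b hab
        rw [MulAction.orbitRel_apply] at hab
        obtain ⟨⟨h, hh⟩, rfl⟩ := hab
        exact hz hh b
      · ext x
        rfl
  rw [← (LinearEquiv.ofBijective Φ hbij).finrank_eq, Module.finrank_fintype_fun_eq_card,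
    Nat.card_eq_fintype_card]

end Abstract

section Cocycle

variable {K : Type*} [Field K] {G X : Type*} [Group G] [MulAction G X]

/-- Cocycle condition for `B : G → X → K`. -/
def gk_IsCoc (B : G → X → K) : Prop := ∀ g h x, B (g * h) x = B g (h • x) + B h x

theorem gk_IsCoc.one {B : G → X → K} (hB : gk_IsCoc B) (x : X) : B 1 x = 0 := by
  have := hB 1 1 x
  rw [mul_one, one_smul] at this
  simpa using this

/-- The subgroup on which a cocycle vanishes. -/
def gk_IsCoc.ker {B : G → X → K} (hB : gk_IsCoc B) : Subgroup G where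
  carrier := {g | ∀ x, B g x = 0}
  mul_mem' := fun {a b} ha hb x => by rw [hB, ha, hb, add_zero]
  one_mem' := hB.one
  inv_mem' := fun {a} ha x => by
    have := hB a⁻¹ a (a⁻¹ • x)
    rw [inv_mul_cancel, hB.one, smul_inv_smul, ha, add_zero] at this
    exact this.symm

/-- If the cocycle vanishes on the stabilisers in `⟨g⟩`, then `B g` is a `g`-coboundary. -/
theorem gk_IsCoc.coboundary {B : G → X → K} (hB : gk_IsCoc B) (g : G)
    (h0 : ∀ s ∈ Subgroup.zpowers g, ∀ x : X, s • x = x → B s x = 0) :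
    ∃ h : X → K, ∀ x, B g x = h (g • x) - h x := by
  classical
  let b : X → X := fun x =>
    Quotient.out (Quotient.mk'' x : MulAction.orbitRel.Quotient (Subgroup.zpowers g) X)
  have hb : ∀ x, ∃ k : G, k ∈ Subgroup.zpowers g ∧ k • b x = x := by
    intro x
    have h1 : (Quotient.mk'' (b x) : MulAction.orbitRel.Quotient (Subgroup.zpowers g) X)
        = Quotient.mk'' x := Quotient.out_eq' _
    have h2 := Quotient.exact' h1.symm
    rw [MulAction.orbitRel_apply] at h2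
    obtain ⟨⟨k, hk⟩, hkx⟩ := h2
    exact ⟨k, hk, hkx⟩
  choose k hk hkx using hb
  have hbg : ∀ x, b (g • x) = b x := by
    intro x
    show Quotient.out _ = Quotient.out _
    congr 1
    apply Quotient.sound'
    rw [MulAction.orbitRel_apply]
    exact ⟨⟨g, Subgroup.mem_zpowers g⟩, rfl⟩
  refine ⟨fun x => B (k x) (b x), fun x => ?_⟩
  show B g x = B (k (g • x)) (b (g • x)) - B (k x) (b x)
  set u := k (g • x) with hu
  set v := g * k x with hv
  have hub : u • b x = g • x := by rw [← hbg x]; exact hkx (g • x)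
  have hvb : v • b x = g • x := by rw [hv, mul_smul, hkx]
  have hs : v⁻¹ * u ∈ Subgroup.zpowers g :=
    mul_mem (inv_mem (mul_mem (Subgroup.mem_zpowers g) (hk x))) (hk _)
  have hsb : (v⁻¹ * u) • b x = b x := by
    rw [mul_smul, hub, ← hvb, inv_smul_smul]
  have h1 : B u (b x) = B v (b x) := by
    have h2 := hB v (v⁻¹ * u) (b x)
    rw [mul_inv_cancel_left, hsb, h0 _ hs _ hsb, add_zero] at h2
    exact h2
  have h3 : B v (b x) = B g x + B (k x) (b x) := by
    rw [hv, hB, hkx]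
  rw [hbg, h1, h3]
  ring

end Cocycle

section Concrete

variable {K : Type*} [Field K] (Γ : Subgroup SL(2, ℤ))

/-- Extension by zero of a homomorphism on `Γ`. -/
noncomputable def gk_ext (φ : Additive Γ →+ K) (g : SL(2, ℤ)) : K := by
  classical exact if h : g ∈ Γ then φ (Additive.ofMul ⟨g, h⟩) else 0

variable {Γ}

theorem gk_ext_of_mem (φ : Additive Γ →+ K) {g : SL(2, ℤ)} (h : g ∈ Γ) :
    gk_ext Γ φ g = φ (Additive.ofMul ⟨g, h⟩) := by
  simp [gk_ext, h]

theorem gk_ext_mul (φ : Additive Γ →+ K) {g h : SL(2, ℤ)} (hg : g ∈ Γ) (hh : h ∈ Γ) :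
    gk_ext Γ φ (g * h) = gk_ext Γ φ g + gk_ext Γ φ h := by
  rw [gk_ext_of_mem φ hg, gk_ext_of_mem φ hh, gk_ext_of_mem φ (mul_mem hg hh), ← map_add]
  rfl

theorem gk_ext_add (φ ψ : Additive Γ →+ K) (g : SL(2, ℤ)) :
    gk_ext Γ (φ + ψ) g = gk_ext Γ φ g + gk_ext Γ ψ g := by
  by_cases h : g ∈ Γ <;> simp [gk_ext, h]

theorem gk_ext_smul (c : K) (φ : Additive Γ →+ K) (g : SL(2, ℤ)) :
    gk_ext Γ (c • φ) g = c * gk_ext Γ φ g := by
  by_cases h : g ∈ Γ <;> simp [gk_ext, h]

theorem gk_ext_ellPar {φ : Additive Γ →+ K} (hφ : φ ∈ ellParHoms K Γ) (g : SL(2, ℤ))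
    (hg : (g : Matrix (Fin 2) (Fin 2) ℤ).trace ^ 2 ≤ 4) : gk_ext Γ φ g = 0 := by
  by_cases h : g ∈ Γ
  · rw [gk_ext_of_mem φ h]
    exact hφ ⟨g, h⟩ hg
  · simp [gk_ext, h]

/-- The cocycle attached to `(φ, m)`. -/
noncomputable def gk_B (φ : Additive Γ →+ K) (m : SL(2, ℤ) ⧸ Γ → K) (g : SL(2, ℤ))
    (x : SL(2, ℤ) ⧸ Γ) : K :=
  gk_ext Γ φ (gb_kap Γ g x) + m (g • x) - m x

theorem gk_B_isCoc (φ : Additive Γ →+ K) (m : SL(2, ℤ) ⧸ Γ → K) : gk_IsCoc (gk_B φ m) := by
  intro g h x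
  unfold gk_B
  rw [gb_kap_mul, gk_ext_mul φ (gb_kap_mem _ _) (gb_kap_mem _ _), mul_smul]
  ring

/-- If `h` fixes `x` and has trace `0, ±1, ±2`, the cocycle of `φ` vanishes at `(h, x)`. -/
theorem gk_B_eq_zero {φ : Additive Γ →+ K} (hφ : φ ∈ ellParHoms K Γ)
    (m : SL(2, ℤ) ⧸ Γ → K) (h : SL(2, ℤ))
    (htr : (h : Matrix (Fin 2) (Fin 2) ℤ).trace ^ 2 ≤ 4) (x : SL(2, ℤ) ⧸ Γ) (hx : h • x = x) :
    gk_B φ m h x = 0 := by
  unfold gk_B
  rw [hx, gk_ext_ellPar hφ, zero_add, sub_self]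
  unfold gb_kap
  rw [hx, Matrix.SpecialLinearGroup.coe_mul, Matrix.SpecialLinearGroup.coe_mul,
    Matrix.trace_mul_comm, ← Matrix.mul_assoc, ← Matrix.SpecialLinearGroup.coe_mul, mul_inv_cancel]
  simpa using htr

end Concrete

section Traces

theorem gk_trace_S (s : SL(2, ℤ)) (hs : s ∈ Subgroup.zpowers ModularGroup.S) :
    (s : Matrix (Fin 2) (Fin 2) ℤ).trace ^ 2 ≤ 4 := by
  obtain ⟨k, rfl⟩ := hs
  have h4 : ModularGroup.S ^ (4 : ℤ) = 1 := by
    have : ModularGroup.S ^ (4 : ℕ) = 1 := by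
      rw [show (4 : ℕ) = 2 * 2 from rfl, pow_mul, gb_S_sq]; simp
    exact_mod_cast this
  show ((ModularGroup.S ^ k : SL(2, ℤ)) : Matrix (Fin 2) (Fin 2) ℤ).trace ^ 2 ≤ 4
  rw [zpow_eq_zpow_emod k h4]
  have h1 : 0 ≤ k % 4 := Int.emod_nonneg _ (by norm_num)
  have h2 : k % 4 < 4 := Int.emod_lt_of_pos _ (by norm_num)
  obtain ⟨r, hr⟩ := Int.eq_ofNat_of_zero_le h1
  rw [hr] at h2 ⊢
  rw [zpow_natCast]
  have h3 : r < 4 := by exact_mod_cast h2
  interval_cases r <;> decide

theorem gk_trace_U (s : SL(2, ℤ))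
    (hs : s ∈ Subgroup.zpowers (ModularGroup.S * ModularGroup.T)) :
    (s : Matrix (Fin 2) (Fin 2) ℤ).trace ^ 2 ≤ 4 := by
  obtain ⟨k, rfl⟩ := hs
  have h4 : (ModularGroup.S * ModularGroup.T) ^ (6 : ℤ) = 1 := by
    have : (ModularGroup.S * ModularGroup.T) ^ (6 : ℕ) = 1 := by
      rw [show (6 : ℕ) = 3 * 2 from rfl, pow_mul, gb_U_cube]; simp
    exact_mod_cast this
  show (((ModularGroup.S * ModularGroup.T) ^ k : SL(2, ℤ)) :
    Matrix (Fin 2) (Fin 2) ℤ).trace ^ 2 ≤ 4
  rw [zpow_eq_zpow_emod k h4]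
  have h1 : 0 ≤ k % 6 := Int.emod_nonneg _ (by norm_num)
  have h2 : k % 6 < 6 := Int.emod_lt_of_pos _ (by norm_num)
  obtain ⟨r, hr⟩ := Int.eq_ofNat_of_zero_le h1
  rw [hr] at h2 ⊢
  rw [zpow_natCast]
  have h3 : r < 6 := by exact_mod_cast h2
  interval_cases r <;> decide

theorem gk_trace_T (s : SL(2, ℤ)) (hs : s ∈ Subgroup.zpowers ModularGroup.T) :
    (s : Matrix (Fin 2) (Fin 2) ℤ).trace ^ 2 ≤ 4 := by
  obtain ⟨k, rfl⟩ := hs
  show ((ModularGroup.T ^ k : SL(2, ℤ)) : Matrix (Fin 2) (Fin 2) ℤ).trace ^ 2 ≤ 4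
  rw [ModularGroup.coe_T_zpow]
  simp [Matrix.trace, Fin.sum_univ_two]

end Traces

section Final

variable {K : Type*} [Field K] {Γ : Subgroup SL(2, ℤ)}

variable (K) in
/-- The linear map `(φ, m) ↦ (B_S, B_U)`. -/
noncomputable def gk_Xi (Γ : Subgroup SL(2, ℤ)) :
    (ellParHoms K Γ × (SL(2, ℤ) ⧸ Γ → K)) →ₗ[K]
      (SL(2, ℤ) ⧸ Γ → K) × (SL(2, ℤ) ⧸ Γ → K) where
  toFun p := (gk_B (p.1 : Additive Γ →+ K) p.2 ModularGroup.S,
    gk_B (p.1 : Additive Γ →+ K) p.2 (ModularGroup.S * ModularGroup.T))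
  map_add' p q := by
    ext x <;> simp [gk_B, gk_ext_add] <;> ring
  map_smul' c p := by
    ext x <;> simp [gk_B, gk_ext_smul] <;> ring

theorem gk_const {l : SL(2, ℤ) ⧸ Γ → K} (h1 : l ∈ gk_inv K ModularGroup.S)
    (h2 : l ∈ gk_inv K ModularGroup.T) (x : SL(2, ℤ) ⧸ Γ) :
    l x = l ((1 : SL(2, ℤ)) : SL(2, ℤ) ⧸ Γ) := by
  have h : (⊤ : Subgroup SL(2, ℤ)) ≤ gk_stab (G := SL(2, ℤ)) l := by
    rw [← SpecialLinearGroup.SL2Z_generators, Subgroup.closure_le]
    rintro g (rfl | rfl)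
    · exact h1
    · exact h2
  obtain ⟨g, rfl⟩ := gb_exists_smul x
  exact h (Subgroup.mem_top g) _

theorem gk_Xi_ker (p : ellParHoms K Γ × (SL(2, ℤ) ⧸ Γ → K)) (hp : gk_Xi K Γ p = 0) :
    p.1 = 0 ∧ ∀ x, p.2 x = p.2 ((1 : SL(2, ℤ)) : SL(2, ℤ) ⧸ Γ) := by
  obtain ⟨⟨φ, hφ⟩, m⟩ := p
  simp only [gk_Xi, LinearMap.coe_mk, AddHom.coe_mk, Prod.mk_eq_zero] at hp
  obtain ⟨hS, hU⟩ := hp
  have hcoc := gk_B_isCoc φ m
  have htop : (⊤ : Subgroup SL(2, ℤ)) ≤ hcoc.ker := by
    rw [← SpecialLinearGroup.SL2Z_generators, Subgroup.closure_le]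
    rintro g (rfl | rfl)
    · exact fun x => congrFun hS x
    · intro x
      have h1 := hcoc ModularGroup.S ModularGroup.T x
      rw [hS, hU] at h1
      simpa using h1.symm
  have hall : ∀ g x, gk_B φ m g x = 0 := fun g x => htop (Subgroup.mem_top g) x
  set x0 : SL(2, ℤ) ⧸ Γ := ((1 : SL(2, ℤ)) : SL(2, ℤ) ⧸ Γ) with hx0
  have hout : (Quotient.out x0 : SL(2, ℤ)) ∈ Γ := by
    have h1 : ((Quotient.out x0 : SL(2, ℤ)) : SL(2, ℤ) ⧸ Γ) = ((1 : SL(2, ℤ)) : SL(2, ℤ) ⧸ Γ) :=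
      QuotientGroup.out_eq' x0
    rw [eq_comm, QuotientGroup.eq] at h1
    simpa using h1
  have hφ0 : φ = 0 := by
    refine AddMonoidHom.ext fun γ' => ?_
    obtain ⟨γ, rfl⟩ := Additive.ofMul.surjective γ'
    obtain ⟨γ, hγ⟩ := γ
    have hfix : γ • x0 = x0 := by
      show ((γ * 1 : SL(2, ℤ)) : SL(2, ℤ) ⧸ Γ) = ((1 : SL(2, ℤ)) : SL(2, ℤ) ⧸ Γ)
      rw [eq_comm, QuotientGroup.eq]
      simpa using hγ
    have h1 := hall γ x0
    unfold gk_B gb_kap at h1
    rw [hfix, gk_ext_mul φ (mul_mem (inv_mem hout) hγ) hout, gk_ext_mul φ (inv_mem hout) hγ] at h1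
    have h2 : gk_ext Γ φ (Quotient.out x0)⁻¹ + gk_ext Γ φ (Quotient.out x0) = 0 := by
      rw [← gk_ext_mul φ (inv_mem hout) hout, inv_mul_cancel, gk_ext_of_mem φ (one_mem Γ)]
      exact map_zero φ
    rw [gk_ext_of_mem φ hγ] at h1
    rw [AddMonoidHom.zero_apply]
    linear_combination h1 - h2
  refine ⟨by simpa using hφ0, fun x => ?_⟩
  obtain ⟨g, rfl⟩ := gb_exists_smul x
  have h1 := hall g x0
  unfold gk_B at h1
  rw [hφ0, gk_ext_of_mem 0 (gb_kap_mem _ _)] at h1
  simp only [AddMonoidHom.zero_apply, zero_add] at h1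
  exact sub_eq_zero.mp h1

theorem gk_finiteDimensional [Γ.FiniteIndex] : FiniteDimensional K (ellParHoms K Γ) := by
  have : Finite (SL(2, ℤ) ⧸ Γ) := Subgroup.finite_quotient_of_finiteIndex
  refine FiniteDimensional.of_injective ((gk_Xi K Γ).comp (LinearMap.inl K _ _)) ?_
  rw [injective_iff_map_eq_zero]
  intro φ hφ
  exact (gk_Xi_ker (φ, 0) hφ).1

theorem gk_Xi_orth [Fintype (SL(2, ℤ) ⧸ Γ)]
    (p : ellParHoms K Γ × (SL(2, ℤ) ⧸ Γ → K)) :
    (∀ l ∈ gk_inv K ModularGroup.S, ∑ x, l x * (gk_Xi K Γ p).1 x = 0) ∧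
    (∀ l ∈ gk_inv K (ModularGroup.S * ModularGroup.T), ∑ x, l x * (gk_Xi K Γ p).2 x = 0) ∧
    (∀ l ∈ gk_inv K ModularGroup.T, ∑ x, l x * ((gk_Xi K Γ p).2 x - (gk_Xi K Γ p).1 x) = 0) := by
  obtain ⟨⟨φ, hφ⟩, m⟩ := p
  simp only [gk_Xi, LinearMap.coe_mk, AddHom.coe_mk]
  have hcoc := gk_B_isCoc φ m
  obtain ⟨hS, hhS⟩ := hcoc.coboundary ModularGroup.S
    (fun s hs x hx => gk_B_eq_zero hφ m s (gk_trace_S s hs) x hx)
  obtain ⟨hU, hhU⟩ := hcoc.coboundary (ModularGroup.S * ModularGroup.T)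
    (fun s hs x hx => gk_B_eq_zero hφ m s (gk_trace_U s hs) x hx)
  obtain ⟨hT, hhT⟩ := hcoc.coboundary ModularGroup.T
    (fun s hs x hx => gk_B_eq_zero hφ m s (gk_trace_T s hs) x hx)
  refine ⟨fun l hl => ?_, fun l hl => ?_, fun l hl => ?_⟩
  · rw [Finset.sum_congr rfl fun x _ => by rw [hhS x]]
    exact gk_orth _ hS hl
  · rw [Finset.sum_congr rfl fun x _ => by rw [hhU x]]
    exact gk_orth _ hU hl
  · have hT0 : ∑ x, l x * gk_B φ m ModularGroup.T x = 0 := by
      rw [Finset.sum_congr rfl fun x _ => by rw [hhT x]]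
      exact gk_orth _ hT hl
    have h3 : ∑ x, l x * gk_B φ m ModularGroup.S (ModularGroup.T • x)
        = ∑ x, l x * gk_B φ m ModularGroup.S x := by
      rw [← Equiv.sum_comp (MulAction.toPerm ModularGroup.T)
        (fun x => l x * gk_B φ m ModularGroup.S x)]
      refine Finset.sum_congr rfl fun x _ => ?_
      rw [MulAction.toPerm_apply, hl x]
    have h4 : ∀ x, l x * (gk_B φ m (ModularGroup.S * ModularGroup.T) x - gk_B φ m ModularGroup.S x)
        = l x * gk_B φ m ModularGroup.S (ModularGroup.T • x) + l x * gk_B φ m ModularGroup.T x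
          - l x * gk_B φ m ModularGroup.S x := by
      intro x
      rw [hcoc]; ring
    rw [Finset.sum_congr rfl fun x _ => h4 x, Finset.sum_sub_distrib, Finset.sum_add_distrib, h3,
      hT0]
    ring

end Final

theorem finrank_ellParHoms_le (K : Type*) [Field K] (Γ : Subgroup SL(2, ℤ)) [Γ.FiniteIndex]
    (hneg : -1 ∈ Γ) :
    FiniteDimensional K (ellParHoms K Γ) ∧
    6 * Module.finrank K (ellParHoms K Γ)
      + 3 * Nat.card {x : SL(2, ℤ) ⧸ Γ // ModularGroup.S • x = x}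
      + 4 * Nat.card {x : SL(2, ℤ) ⧸ Γ // (ModularGroup.S * ModularGroup.T) • x = x}
      + 6 * Nat.card (MulAction.orbitRel.Quotient (Subgroup.zpowers ModularGroup.T) (SL(2, ℤ) ⧸ Γ))
      ≤ Γ.index + 12 := by
  classical
  have hfd : FiniteDimensional K (ellParHoms K Γ) := gk_finiteDimensional
  refine ⟨hfd, ?_⟩
  have : Finite (SL(2, ℤ) ⧸ Γ) := Subgroup.finite_quotient_of_finiteIndex
  have : Fintype (SL(2, ℤ) ⧸ Γ) := Fintype.ofFinite _
  set x0 : SL(2, ℤ) ⧸ Γ := ((1 : SL(2, ℤ)) : SL(2, ℤ) ⧸ Γ) with hx0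
  have hd : Γ.index = Fintype.card (SL(2, ℤ) ⧸ Γ) := by
    rw [Subgroup.index, Nat.card_eq_fintype_card]
  -- step 1: the kernel of `Ξ`
  have h1 := gk_finrank_le_range_add_one (K := K) (gk_Xi K Γ)
    ((0 : ellParHoms K Γ), fun _ : SL(2, ℤ) ⧸ Γ => (1 : K)) (by
    intro p hp
    obtain ⟨hp1, hp2⟩ := gk_Xi_ker p hp
    refine ⟨p.2 x0, ?_⟩
    ext x
    · rw [hp1]; simp
    · simp [hp2 x, hx0])
  haveI hfree : Module.Free K (ellParHoms K Γ) := by
    have := Module.Free.of_divisionRing K (ellParHoms K Γ)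
    exact this
  rw [Module.finrank_prod, Module.finrank_fintype_fun_eq_card] at h1
  -- step 2: the range of `Ξ`
  have h2 := gk_dim_bound x0 ModularGroup.S (ModularGroup.S * ModularGroup.T) ModularGroup.T
    (fun l hl1 hl2 x => gk_const hl1 hl2 x) (LinearMap.range (gk_Xi K Γ)) (by
      rintro w ⟨p, rfl⟩
      exact gk_Xi_orth p)
  -- step 3: dimensions of the invariants
  have h3 := gb_card_inv (X := SL(2, ℤ) ⧸ Γ) ModularGroup.S 2 two_pos (fun x => by
    rw [gb_S_sq, gb_neg_one_smul hneg])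
  have h4 := gb_card_inv (X := SL(2, ℤ) ⧸ Γ) (ModularGroup.S * ModularGroup.T) 3 three_pos
    (fun x => by rw [gb_U_cube, gb_neg_one_smul hneg])
  rw [gb_finrank_inv_eq_card_orbits] at h3 h4
  have h5 : finrank K (gk_inv K (X := SL(2, ℤ) ⧸ Γ) ModularGroup.T) = Nat.card
      (MulAction.orbitRel.Quotient (Subgroup.zpowers ModularGroup.T) (SL(2, ℤ) ⧸ Γ)) :=
    gk_finrank_inv_eq_card_orbits (X := SL(2, ℤ) ⧸ Γ) ModularGroup.T
  rw [gk_finrank_inv_eq_card_orbits, gk_finrank_inv_eq_card_orbits, h5] at h2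
  have hall : ∀ g : SL(2, ℤ), Fintype.card {x : SL(2, ℤ) ⧸ Γ // g ^ 0 • x = x}
      = Fintype.card (SL(2, ℤ) ⧸ Γ) := by
    intro g
    exact Fintype.card_congr (Equiv.subtypeUnivEquiv fun x => by simp)
  have hone : ∀ g : SL(2, ℤ), Fintype.card {x : SL(2, ℤ) ⧸ Γ // g ^ 1 • x = x}
      = Nat.card {x : SL(2, ℤ) ⧸ Γ // g • x = x} := by
    intro g
    rw [Nat.card_eq_fintype_card]
    exact Fintype.card_congr (Equiv.subtypeEquivRight fun x => by simp)
  have htwo : Fintype.card {x : SL(2, ℤ) ⧸ Γ // (ModularGroup.S * ModularGroup.T) ^ 2 • x = x}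
      = Nat.card {x : SL(2, ℤ) ⧸ Γ // (ModularGroup.S * ModularGroup.T) • x = x} := by
    rw [Nat.card_eq_fintype_card]
    refine Fintype.card_congr (Equiv.subtypeEquivRight fun x => ⟨fun h => ?_, fun h => ?_⟩)
    · have h6 : (ModularGroup.S * ModularGroup.T) ^ 3 • x = x := by
        rw [gb_U_cube, gb_neg_one_smul hneg]
      rw [pow_succ', mul_smul, h] at h6
      exact h6
    · rw [pow_two, mul_smul, h, h]
  rw [Finset.sum_range_succ, Finset.sum_range_succ, Finset.sum_range_zero, hall, hone] at h3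
  rw [Finset.sum_range_succ, Finset.sum_range_succ, Finset.sum_range_succ, Finset.sum_range_zero,
    hall, hone, htwo] at h4
  omega

end Fermat.Agent.S16Lib
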