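import Mathlib

/-!
# S16, lower bound: an abstract criterion for a f.g. abelian group to be torsion free
-/

open scoped DirectSum

namespace Fermat.Agent.S16Lib

section abs

variable {A : Type*} [AddCommGroup A]

theorem tf_hom_zmod_eq_zero {m : ℕ} (hm : m ≠ 0) (f : ZMod m →+ ℂ) (y : ZMod m) : f y = 0 := by
  have h1 : m • f y = 0 := by
    rw [← map_nsmul, nsmul_eq_mul, ZMod.natCast_self, zero_mul, map_zero]
  rw [nsmul_eq_mul] at h1
  rcases mul_eq_zero.mp h1 with h | h
  · exact absurd (by exact_mod_cast h) hm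
  · exact h

variable {n : ℕ} {ι : Type} {p : ι → ℕ} {e : ι → ℕ}

/-- the free coordinates -/
noncomputable def tf_c (E : A ≃+ (Fin n →₀ ℤ) × ⨁ i : ι, ZMod (p i ^ e i)) (j : Fin n) : A →+ ℤ :=
  (Finsupp.applyAddHom j).comp ((AddMonoidHom.fst _ _).comp E.toAddMonoidHom)

/-- the torsion coordinates -/
noncomputable def tf_t (E : A ≃+ (Fin n →₀ ℤ) × ⨁ i : ι, ZMod (p i ^ e i)) (i : ι) :
    A →+ ZMod (p i ^ e i) :=
  ((DirectSum.component ℤ ι (fun i => ZMod (p i ^ e i)) i).toAddMonoidHom).comp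
    ((AddMonoidHom.snd _ _).comp E.toAddMonoidHom)

theorem tf_finrank_le (hp : ∀ i, (p i).Prime)
    (E : A ≃+ (Fin n →₀ ℤ) × ⨁ i : ι, ZMod (p i ^ e i)) :
    Module.finrank ℂ (A →+ ℂ) ≤ n := by
  classical
  let L : (A →+ ℂ) →ₗ[ℂ] (Fin n → ℂ) :=
    { toFun := fun ψ j => ψ (E.symm (Finsupp.single j 1, 0))
      map_add' := fun _ _ => rfl
      map_smul' := fun _ _ => rfl }
  have hL : Function.Injective L := by
    rw [injective_iff_map_eq_zero]
    intro ψ hψ
    have h0 : ∀ j, ψ (E.symm (Finsupp.single j 1, 0)) = 0 := fun j => congrFun hψ j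
    have h1 : (ψ.comp E.symm.toAddMonoidHom).comp (AddMonoidHom.inl _ _) = 0 := by
      refine Finsupp.addHom_ext fun j z => ?_
      have : (Finsupp.single j z : Fin n →₀ ℤ) = z • Finsupp.single j 1 := by
        rw [Finsupp.smul_single, smul_eq_mul, mul_one]
      have h2 : ((Finsupp.single j z : Fin n →₀ ℤ), (0 : ⨁ i : ι, ZMod (p i ^ e i)))
          = z • ((Finsupp.single j 1 : Fin n →₀ ℤ), (0 : ⨁ i : ι, ZMod (p i ^ e i))) := by
        rw [Prod.smul_mk, smul_zero, ← this]
      show ψ (E.symm (Finsupp.single j z, 0)) = 0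
      rw [h2, map_zsmul, map_zsmul, h0, smul_zero]
    have h2 : (ψ.comp E.symm.toAddMonoidHom).comp (AddMonoidHom.inr _ _) = 0 := by
      refine DirectSum.addHom_ext fun i y => ?_
      exact tf_hom_zmod_eq_zero (pow_ne_zero _ (hp i).ne_zero)
        (((ψ.comp E.symm.toAddMonoidHom).comp (AddMonoidHom.inr _ _)).comp
          (DirectSum.of (fun i => ZMod (p i ^ e i)) i)) y
    ext a
    have h3 : a = E.symm ((E a).1, 0) + E.symm (0, (E a).2) := by
      rw [← map_add, Prod.mk_add_mk, add_zero, zero_add, Prod.mk.eta, AddEquiv.symm_apply_apply]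
    rw [h3, map_add]
    have h4 := DFunLike.congr_fun h1 (E a).1
    have h5 := DFunLike.congr_fun h2 (E a).2
    simp only [AddMonoidHom.comp_apply, AddMonoidHom.inl_apply, AddMonoidHom.inr_apply,
      AddMonoidHom.zero_apply] at h4 h5
    simpa using by rw [show ψ (E.symm ((E a).1, 0)) = 0 from h4,
      show ψ (E.symm (0, (E a).2)) = 0 from h5, add_zero]
  calc Module.finrank ℂ (A →+ ℂ) ≤ Module.finrank ℂ (Fin n → ℂ) :=
        LinearMap.finrank_le_finrank_of_injective hL
    _ = n := Module.finrank_fin_fun ℂ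

theorem tf_succ_le_finrank (E : A ≃+ (Fin n →₀ ℤ) × ⨁ i : ι, ZMod (p i ^ e i))
    (i₀ : ι) (he : e i₀ ≠ 0) [Fact (p i₀).Prime]
    [FiniteDimensional (ZMod (p i₀)) (A →+ ZMod (p i₀))] :
    n + 1 ≤ Module.finrank (ZMod (p i₀)) (A →+ ZMod (p i₀)) := by
  classical
  set l := p i₀ with hl
  let v : Option (Fin n) → A := fun o => match o with
    | none => E.symm (0, DirectSum.of (fun i => ZMod (p i ^ e i)) i₀ 1)
    | some j => E.symm (Finsupp.single j 1, 0)
  let Φ : Option (Fin n) → (A →+ ZMod l) := fun o => match o with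
    | none => ((ZMod.castHom (dvd_pow_self (p i₀) he) (ZMod l)).toAddMonoidHom).comp (tf_t E i₀)
    | some j => (Int.castAddHom (ZMod l)).comp (tf_c E j)
  let Ev : (A →+ ZMod l) →ₗ[ZMod l] (Option (Fin n) → ZMod l) :=
    { toFun := fun ψ o => ψ (v o)
      map_add' := fun _ _ => rfl
      map_smul' := fun _ _ => rfl }
  have hEv : ∀ o, Ev (Φ o) = Pi.single o 1 := by
    intro o
    funext o'
    show Φ o (v o') = _
    rcases o with _ | j <;> rcases o' with _ | j'
    · have h1 : tf_t E i₀ (E.symm (0, DirectSum.of (fun i => ZMod (p i ^ e i)) i₀ 1)) = 1 := by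
        simp [tf_t, ← DirectSum.lof_eq_of ℤ, DirectSum.component.lof_self]
      show (ZMod.castHom (dvd_pow_self (p i₀) he) (ZMod l))
        (tf_t E i₀ (E.symm (0, DirectSum.of (fun i => ZMod (p i ^ e i)) i₀ 1))) = _
      rw [h1, map_one]; simp
    · simp [Φ, v, tf_t]
    · simp [Φ, v, tf_c]
    · simp [Φ, v, tf_c, Finsupp.single_apply, Pi.single_apply, eq_comm]
  have hli : LinearIndependent (ZMod l) Φ := by
    refine LinearIndependent.of_comp Ev ?_
    have : (Ev ∘ Φ) = fun o => Pi.single o (1 : ZMod l) := funext hEv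
    rw [this]
    have h2 := (Pi.basisFun (ZMod l) (Option (Fin n))).linearIndependent
    have h3 : ⇑(Pi.basisFun (ZMod l) (Option (Fin n))) = fun o => Pi.single o (1 : ZMod l) := by
      funext o; simp
    rwa [h3] at h2
  have := hli.fintype_card_le_finrank
  simpa using this

/-- A finitely generated abelian group whose `𝔽_l`-duals are never bigger than its `ℂ`-dual is
torsion free; in particular its elements are separated by homomorphisms to `ℂ`. -/
theorem tf_key [AddGroup.FG A]
    (hl : ∀ l : ℕ, ∀ _ : Fact l.Prime, FiniteDimensional (ZMod l) (A →+ ZMod l) ∧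
      Module.finrank (ZMod l) (A →+ ZMod l) ≤ Module.finrank ℂ (A →+ ℂ))
    (a : A) (ha : ∀ ψ : A →+ ℂ, ψ a = 0) : a = 0 := by
  classical
  obtain ⟨n, ι, _, p, hp, e, ⟨E⟩⟩ := AddCommGroup.equiv_free_prod_directSum_zmod A
  have h1 := tf_finrank_le hp E
  have he : ∀ i, e i = 0 := by
    intro i
    by_contra hi
    have : Fact (p i).Prime := ⟨hp i⟩
    obtain ⟨hfd, hle⟩ := hl (p i) ⟨hp i⟩
    have := tf_succ_le_finrank E i hi
    omega
  apply E.injective
  rw [map_zero]
  refine Prod.ext ?_ ?_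
  · ext j
    have h2 := ha ((Int.castAddHom ℂ).comp (tf_c E j))
    have h3 : ((tf_c E j a : ℤ) : ℂ) = 0 := h2
    have h4 : tf_c E j a = 0 := by exact_mod_cast h3
    exact h4
  · refine DFinsupp.ext fun i => ?_
    have : Subsingleton (ZMod (p i ^ e i)) := by
      rw [he i, pow_zero]; infer_instance
    exact Subsingleton.elim _ _

end abs

end Fermat.Agent.S16Lib
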