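import Mathlib
import Fermat.Agent.S16.Lower.Defs
import Fermat.Agent.S16.Lower.TorsionAbs

/-!
# S16, lower bound: `Γ^ab / ⟨parabolic, elliptic⟩` is torsion free (group bound as a hypothesis)
-/

open scoped MatrixGroups
open ModularCurve ModularCurve.Period

namespace Fermat.Agent.S16Lib

section conc

variable (Γ : Subgroup SL(2, ℤ))

/-- elements of trace `0, ±1, ±2` -/
def tf_S : Set Γ := {γ | ((γ : SL(2, ℤ)) : Matrix (Fin 2) (Fin 2) ℤ).trace ^ 2 ≤ 4}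

def tf_H : Subgroup (Abelianization Γ) := Subgroup.closure (Abelianization.of '' tf_S Γ)

abbrev tf_Q : Type := Abelianization Γ ⧸ tf_H Γ

def tf_pi : Γ →* tf_Q Γ := (QuotientGroup.mk' (tf_H Γ)).comp Abelianization.of

theorem tf_pi_surjective : Function.Surjective (tf_pi Γ) :=
  (QuotientGroup.mk'_surjective _).comp (QuotientGroup.mk_surjective (s := commutator Γ))

variable {Γ}

theorem tf_pi_eq_one {γ : Γ} (h : γ ∈ tf_S Γ) : tf_pi Γ γ = 1 := by
  show QuotientGroup.mk' (tf_H Γ) (Abelianization.of γ) = 1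
  rw [QuotientGroup.mk'_apply, QuotientGroup.eq_one_iff]
  exact Subgroup.subset_closure ⟨γ, h, rfl⟩

def tf_lift {Q : Type*} [CommGroup Q] (χ : Γ →* Q) (hχ : ∀ γ ∈ tf_S Γ, χ γ = 1) : tf_Q Γ →* Q :=
  QuotientGroup.lift (tf_H Γ) (Abelianization.lift χ) (by
    intro x hx
    have : tf_H Γ ≤ (Abelianization.lift χ).ker := by
      rw [tf_H, Subgroup.closure_le]
      rintro _ ⟨γ, hγ, rfl⟩
      rw [SetLike.mem_coe, MonoidHom.mem_ker, Abelianization.lift_apply_of]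
      exact hχ γ hγ
    exact this hx)

theorem tf_lift_pi {Q : Type*} [CommGroup Q] (χ : Γ →* Q) (hχ : ∀ γ ∈ tf_S Γ, χ γ = 1) (γ : Γ) :
    tf_lift χ hχ (tf_pi Γ γ) = χ γ := by
  show QuotientGroup.lift (tf_H Γ) (Abelianization.lift χ) _
    (QuotientGroup.mk' (tf_H Γ) (Abelianization.of γ)) = χ γ
  rw [QuotientGroup.mk'_apply, QuotientGroup.lift_mk, Abelianization.lift_apply_of]

variable (Γ)

/-- `Hom(A₀, K) ≃ ellParHoms K Γ`. -/
noncomputable def tf_toEllPar (K : Type*) [Field K] :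
    (Additive (tf_Q Γ) →+ K) →ₗ[K] ellParHoms K Γ where
  toFun f := ⟨f.comp (MonoidHom.toAdditive (tf_pi Γ)), by
    intro γ hγ
    show f (Additive.ofMul (tf_pi Γ γ)) = 0
    rw [tf_pi_eq_one (show γ ∈ tf_S Γ from hγ)]
    exact map_zero f⟩
  map_add' _ _ := rfl
  map_smul' _ _ := rfl

theorem tf_toEllPar_bijective (K : Type*) [Field K] : Function.Bijective (tf_toEllPar Γ K) := by
  constructor
  · intro f g hfg
    refine AddMonoidHom.ext fun x => ?_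
    obtain ⟨γ, hγ⟩ := tf_pi_surjective Γ (Additive.toMul x)
    have h1 := DFunLike.congr_fun (congrArg Subtype.val hfg) (Additive.ofMul γ)
    have h2 : f (Additive.ofMul (tf_pi Γ γ)) = g (Additive.ofMul (tf_pi Γ γ)) := h1
    rw [hγ] at h2
    exact h2
  · rintro ⟨φ, hφ⟩
    let χ : Γ →* Multiplicative K := AddMonoidHom.toMultiplicativeRight φ
    have hχ : ∀ γ ∈ tf_S Γ, χ γ = 1 := by
      intro γ hγ
      show Multiplicative.ofAdd (φ (Additive.ofMul γ)) = 1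
      rw [hφ γ hγ]; rfl
    refine ⟨MonoidHom.toAdditiveLeft (tf_lift χ hχ), ?_⟩
    apply Subtype.ext
    refine AddMonoidHom.ext fun x => ?_
    show Multiplicative.toAdd (tf_lift χ hχ (tf_pi Γ (Additive.toMul x))) = φ x
    rw [tf_lift_pi]
    rfl

noncomputable def tf_equiv (K : Type*) [Field K] :
    (Additive (tf_Q Γ) →+ K) ≃ₗ[K] ellParHoms K Γ :=
  LinearEquiv.ofBijective (tf_toEllPar Γ K) (tf_toEllPar_bijective Γ K)

theorem tf_trace_sq (g : SL(2, ℤ)) :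
    ((g ^ 2 : SL(2, ℤ)) : Matrix (Fin 2) (Fin 2) ℤ).trace
      = (g : Matrix (Fin 2) (Fin 2) ℤ).trace ^ 2 - 2 := by
  have hdet := g.det_coe
  rw [Matrix.det_fin_two] at hdet
  rw [pow_two, Matrix.SpecialLinearGroup.coe_mul, Matrix.trace_fin_two, Matrix.trace_fin_two,
    Matrix.mul_apply, Matrix.mul_apply, Fin.sum_univ_two, Fin.sum_univ_two]
  linear_combination (-2) * hdet

theorem tf_trace_cube (g : SL(2, ℤ)) :
    ((g ^ 3 : SL(2, ℤ)) : Matrix (Fin 2) (Fin 2) ℤ).trace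
      = (g : Matrix (Fin 2) (Fin 2) ℤ).trace ^ 3 - 3 * (g : Matrix (Fin 2) (Fin 2) ℤ).trace := by
  have hdet := g.det_coe
  rw [Matrix.det_fin_two] at hdet
  rw [pow_succ, pow_two, Matrix.SpecialLinearGroup.coe_mul, Matrix.SpecialLinearGroup.coe_mul,
    Matrix.trace_fin_two, Matrix.trace_fin_two]
  simp only [Matrix.mul_apply, Fin.sum_univ_two]
  linear_combination (-3) * ((g : Matrix (Fin 2) (Fin 2) ℤ) 0 0 + (g : Matrix (Fin 2) (Fin 2) ℤ) 1 1)
    * hdet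

theorem tf_ellPar_eq : ellParHoms ℂ Γ = parabolicHoms ℂ Γ ℂ := by
  apply le_antisymm
  · intro φ hφ γ hγ
    exact hφ γ hγ.le
  · intro φ hφ γ hγ
    set t := ((γ : SL(2, ℤ)) : Matrix (Fin 2) (Fin 2) ℤ).trace with ht
    have hb : -2 ≤ t ∧ t ≤ 2 := by constructor <;> nlinarith
    obtain ⟨h1, h2⟩ := hb
    have hcases : t ^ 2 = 4 ∨ t = 0 ∨ t ^ 2 = 1 := by
      interval_cases t <;> simp
    rcases hcases with h | h | h
    · exact hφ γ h
    · have h3 : (((γ ^ 2 : Γ) : SL(2, ℤ)) : Matrix (Fin 2) (Fin 2) ℤ).trace ^ 2 = 4 := by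
        rw [Subgroup.coe_pow, tf_trace_sq, ← ht, h]; norm_num
      have h4 := hφ (γ ^ 2) h3
      rw [ofMul_pow, map_nsmul, nsmul_eq_mul] at h4
      simpa using h4
    · have h3 : (((γ ^ 3 : Γ) : SL(2, ℤ)) : Matrix (Fin 2) (Fin 2) ℤ).trace ^ 2 = 4 := by
        rw [Subgroup.coe_pow, tf_trace_cube, ← ht]
        have : (t ^ 3 - 3 * t) ^ 2 = (t ^ 2) * (t ^ 2 - 3) ^ 2 := by ring
        rw [this, h]; norm_num
      have h4 := hφ (γ ^ 3) h3
      rw [ofMul_pow, map_nsmul, nsmul_eq_mul] at h4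
      simpa using h4

theorem tf_fg [Γ.FiniteIndex] : AddGroup.FG (Additive (tf_Q Γ)) := by
  have : Group.FG SL(2, ℤ) :=
    ⟨⟨{ModularGroup.S, ModularGroup.T}, by
      simpa using SpecialLinearGroup.SL2Z_generators⟩⟩
  have : Group.FG Γ := Subgroup.fg_of_index_ne_zero _
  have : Group.FG (tf_Q Γ) := Group.fg_of_surjective (tf_pi_surjective Γ)
  infer_instance

/-- (TF) with the group bound over `𝔽_l` as a hypothesis. -/
theorem eq_one_of_forall_parabolicHoms_of [Γ.FiniteIndex]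
    (hGK : ∀ l : ℕ, ∀ _ : Fact l.Prime, FiniteDimensional (ZMod l) (ellParHoms (ZMod l) Γ) ∧
      Module.finrank (ZMod l) (ellParHoms (ZMod l) Γ)
        ≤ Module.finrank ℂ (parabolicHoms ℂ Γ ℂ))
    {Q : Type*} [CommGroup Q] (χ : Γ →* Q)
    (hχ : ∀ γ : Γ, ((γ : SL(2, ℤ)) : Matrix (Fin 2) (Fin 2) ℤ).trace ^ 2 ≤ 4 → χ γ = 1)
    (γ : Γ) (hγ : ∀ ψ ∈ parabolicHoms ℂ Γ ℂ, ψ (Additive.ofMul γ) = 0) : χ γ = 1 := by
  have := tf_fg Γ
  have hC : Module.finrank ℂ (Additive (tf_Q Γ) →+ ℂ) = Module.finrank ℂ (parabolicHoms ℂ Γ ℂ) := by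
    rw [← tf_ellPar_eq]
    exact (tf_equiv Γ ℂ).finrank_eq
  have key : Additive.ofMul (tf_pi Γ γ) = 0 := by
    refine tf_key ?_ _ ?_
    · intro l hl
      obtain ⟨h1, h2⟩ := hGK l hl
      refine ⟨Module.Finite.equiv (tf_equiv Γ (ZMod l)).symm, ?_⟩
      rw [hC, (tf_equiv Γ (ZMod l)).finrank_eq]
      exact h2
    · intro ψ
      have h1 : ((tf_toEllPar Γ ℂ ψ : ellParHoms ℂ Γ) : Additive Γ →+ ℂ) ∈ parabolicHoms ℂ Γ ℂ :=
        (tf_ellPar_eq Γ).le (tf_toEllPar Γ ℂ ψ).2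
      exact hγ _ h1
  have h2 : tf_pi Γ γ = 1 := key
  rw [← tf_lift_pi χ hχ γ, h2, map_one]

end conc

end Fermat.Agent.S16Lib
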