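import Mathlib
import Fermat.Agent.S16.Lower.Defs
import Fermat.Agent.S21.GroupBound
import Fermat.Agent.S16.Lower.GroupBoundK
import Fermat.Agent.S16.Lower.TorsionOf

/-!
# S16, lower bound: `Γ^ab / ⟨parabolic, elliptic⟩` is torsion free
-/

open scoped MatrixGroups
open ModularCurve ModularCurve.Period

namespace Fermat.Agent.S16Lib

theorem eq_one_of_forall_parabolicHoms (Γ : Subgroup SL(2, ℤ)) [Γ.FiniteIndex] (hneg : -1 ∈ Γ)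
    (hdim : Γ.index + 12 ≤ 6 * Module.finrank ℂ (parabolicHoms ℂ Γ ℂ)
      + 3 * Nat.card {x : SL(2, ℤ) ⧸ Γ // ModularGroup.S • x = x}
      + 4 * Nat.card {x : SL(2, ℤ) ⧸ Γ // (ModularGroup.S * ModularGroup.T) • x = x}
      + 6 * Nat.card (MulAction.orbitRel.Quotient (Subgroup.zpowers ModularGroup.T) (SL(2, ℤ) ⧸ Γ)))
    {Q : Type*} [CommGroup Q] (χ : Γ →* Q)
    (hχ : ∀ γ : Γ, ((γ : SL(2, ℤ)) : Matrix (Fin 2) (Fin 2) ℤ).trace ^ 2 ≤ 4 → χ γ = 1)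
    (γ : Γ) (hγ : ∀ ψ ∈ parabolicHoms ℂ Γ ℂ, ψ (Additive.ofMul γ) = 0) : χ γ = 1 := by
  refine eq_one_of_forall_parabolicHoms_of Γ ?_ χ hχ γ hγ
  intro l hl
  obtain ⟨h1, h2⟩ := finrank_ellParHoms_le (ZMod l) Γ hneg
  exact ⟨h1, by omega⟩

end Fermat.Agent.S16Lib
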