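import Mathlib
import Fermat.Agent.S16.Lower.Main
import Fermat.Agent.S16.Lower.Torsion
import Fermat.Statements.S16

set_option autoImplicit false

/-!
# S16, lower bound `n ∣ m`, final form
-/

namespace Fermat.Agent.S16Lib

open CongruenceSubgroup ModularCurve ModularCurve.Period CuspForm
open Fermat.Agent.S21Lib
open scoped MatrixGroups

noncomputable section

theorem tfStmt (N : ℕ) [NeZero N] : TFStmt N := fun χ hχ γ hγ =>
  eq_one_of_forall_parabolicHoms (Gamma0 N) (neg_one_mem_Gamma0 N) (hdim_Gamma0 N) χ hχ γ hγ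

/-- A Hecke polynomial acting as zero on the lattice of integral cusp forms has Eisenstein value
divisible by the Eisenstein numerator. -/
theorem eisensteinNumerator_dvd_aeval (p : ℕ) [Fact p.Prime] (t : HeckeAlg)
    (ht : ((latticeRestrictHom p ∅).toRingHom.comp (heckeEvalForms p 2)) t = 0) :
    (eisensteinNumerator p : ℤ) ∣ MvPolynomial.aeval (eisensteinSystem p) t :=
  eisensteinNumerator_dvd_of_lattice_eq_zero p (tfStmt p) t ht

theorem heckeEvalForms_surjective (N : ℕ) [NeZero N] (k : ℤ) :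
    Function.Surjective (heckeEvalForms N k) := by
  rintro ⟨x, hx⟩
  suffices h : ∃ t, ((heckeEvalForms N k t : heckeAlgebra N k ∅) :
      Module.End ℂ (CuspForm (Gamma0 N) k)) = x by
    obtain ⟨t, ht⟩ := h
    exact ⟨t, Subtype.ext ht⟩
  induction hx using Algebra.adjoin_induction with
  | mem x hx =>
    rcases hx with ⟨ℓ, hℓ, hℓN, -, rfl⟩ | ⟨q, hqN, hq, -, rfl⟩
    · exact ⟨heckeGen ⟨ℓ, hℓ⟩, by rw [heckeEvalForms_heckeGen_of_not_dvd (ℓ := ⟨ℓ, hℓ⟩) hℓN]; rfl⟩
    · exact ⟨heckeGen ⟨q, hq⟩, by rw [heckeEvalForms_heckeGen_of_dvd (q := ⟨q, hq⟩) hqN]; rfl⟩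
  | algebraMap r => exact ⟨MvPolynomial.C r, by rw [heckeEvalForms_C]; rfl⟩
  | add x y _ _ hx hy =>
    obtain ⟨s, rfl⟩ := hx
    obtain ⟨t, rfl⟩ := hy
    exact ⟨s + t, by rw [map_add]; rfl⟩
  | mul x y _ _ hx hy =>
    obtain ⟨s, rfl⟩ := hx
    obtain ⟨t, rfl⟩ := hy
    exact ⟨s * t, by rw [map_mul]; rfl⟩

theorem latticeEval_surjective (N : ℕ) [NeZero N] :
    Function.Surjective ((latticeRestrictHom N ∅).toRingHom.comp (heckeEvalForms N 2)) :=
  (latticeRestrictHom_surjective N ∅).comp (heckeEvalForms_surjective N 2)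

/-- Lower bound: an integer lying in the image of the Eisenstein ideal is divisible by the
Eisenstein numerator. -/
theorem eisensteinNumerator_dvd_of_mem (p : ℕ) [Fact p.Prime] (m : ℤ)
    (hm : (m : ↥(heckeLatticeAlgebra p ∅)) ∈
      Ideal.map ((latticeRestrictHom p ∅).toRingHom.comp (heckeEvalForms p 2))
        (eisensteinIdeal p)) :
    (eisensteinNumerator p : ℤ) ∣ m := by
  rw [Ideal.mem_map_iff_of_surjective _ (latticeEval_surjective p)] at hm
  obtain ⟨s, hs, hsm⟩ := hm
  have hs0 : MvPolynomial.aeval (eisensteinSystem p) s = 0 := (mem_eigenIdeal_iff _ _).mp hs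
  have h := eisensteinNumerator_dvd_aeval p ((m : HeckeAlg) - s) (by
    rw [map_sub, hsm, map_intCast, sub_self])
  rwa [map_sub, hs0, sub_zero, map_intCast, Int.cast_id] at h

/-- abstract wiring -/
theorem natCard_quotient_map_ker {R T F : Type*} [CommRing R] [CommRing T]
    [FunLike F R ℤ] [RingHomClass F R ℤ] (φ : R →+* T) (hφ : Function.Surjective φ) (ev : F)
    (n : ℕ) (hlow : ∀ t, φ t = 0 → (n : ℤ) ∣ ev t) (hup : ∃ t, φ t = 0 ∧ ev t = n) :
    Nat.card (T ⧸ Ideal.map φ (RingHom.ker ev)) = n := by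
  set I := Ideal.map φ (RingHom.ker ev) with hI
  let ψ : ℤ →+* (T ⧸ I) := Int.castRingHom _
  have hψ : ∀ m : ℤ, ψ m = Ideal.Quotient.mk I (m : T) := by
    intro m
    rw [eq_intCast ψ m, map_intCast]
  have hsurj : Function.Surjective ψ := by
    intro y
    obtain ⟨x, rfl⟩ := Ideal.Quotient.mk_surjective y
    obtain ⟨t, rfl⟩ := hφ x
    refine ⟨ev t, ?_⟩
    rw [hψ, Ideal.Quotient.eq]
    have hmem : ((ev t : ℤ) : R) - t ∈ RingHom.ker ev := by
      rw [RingHom.mem_ker, map_sub, map_intCast, Int.cast_id, sub_self]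
    have := Ideal.mem_map_of_mem φ hmem
    rwa [map_sub, map_intCast] at this
  have hker : RingHom.ker ψ = Ideal.span {(n : ℤ)} := by
    ext m
    rw [RingHom.mem_ker, hψ, Ideal.Quotient.eq_zero_iff_mem, Ideal.mem_span_singleton]
    constructor
    · intro hm
      rw [hI, Ideal.mem_map_iff_of_surjective _ hφ] at hm
      obtain ⟨s, hs, hsm⟩ := hm
      have hs0 : ev s = 0 := hs
      have h := hlow ((m : R) - s) (by rw [map_sub, hsm, map_intCast, sub_self])
      rwa [map_sub, hs0, sub_zero, map_intCast, Int.cast_id] at h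
    · rintro ⟨k, rfl⟩
      obtain ⟨t, ht0, htn⟩ := hup
      have hmem : ((n : ℤ) : R) - t ∈ RingHom.ker ev := by
        rw [RingHom.mem_ker, map_sub, map_intCast, Int.cast_id, htn, sub_self]
      have := Ideal.mem_map_of_mem φ hmem
      rw [map_sub, map_intCast, ht0, sub_zero] at this
      rw [Int.cast_mul]
      exact Ideal.mul_mem_right _ _ this
  have e1 := RingHom.quotientKerEquivOfSurjective hsurj
  rw [← Nat.card_congr e1.toEquiv, hker,
    Nat.card_congr (Int.quotientSpanNatEquivZMod n).toEquiv, Nat.card_zmod]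

/-- Wiring: S16 follows from the upper bound: a Hecke polynomial acting as zero whose Eisenstein
value is the Eisenstein numerator. -/
theorem natCard_quotient_eq_of_exists (p : ℕ) [Fact p.Prime]
    (hupper : ∃ t : HeckeAlg, heckeEvalForms p 2 t = 0 ∧
      MvPolynomial.aeval (eisensteinSystem p) t = (eisensteinNumerator p : ℤ)) :
    Nat.card (↥(heckeLatticeAlgebra p ∅) ⧸
        Ideal.map ((latticeRestrictHom p ∅).toRingHom.comp (heckeEvalForms p 2))
          (eisensteinIdeal p)) =
      eisensteinNumerator p := by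
  obtain ⟨t, ht0, htn⟩ := hupper
  exact natCard_quotient_map_ker _ (latticeEval_surjective p)
    (MvPolynomial.aeval (R := ℤ) (eisensteinSystem p)) (eisensteinNumerator p)
    (eisensteinNumerator_dvd_aeval p)
    ⟨t, by rw [RingHom.comp_apply, ht0, map_zero], htn⟩

end

end Fermat.Agent.S16Lib
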